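/-
PROJECT H (S18), slice A3 (helper3): GENERIC NON-SPECIAL DIVISORS, without duality.

Language: the prelude's `AlgebraicCurve.Place / Divisor / riemannRochSpace`.  Riemann's theorem is
taken as a HYPOTHESIS (`RiemannHyp K F g`), so this file does not depend on how blocks A1/A2 prove
it.  Main results:

* `finite_special`   : `ℓ(D) = 1`, `deg D < g`  ⟹  `{Q | 2 ≤ ℓ(D + Q)}` is finite;
* `exists_nonspecial`: for `m ≤ g` there are `m` distinct places `Q`, outside any given finite set
  and pairwise in "general position" for any relation with finite exceptional sets, such that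
  `ℓ(∑ Q) = 1`;
* `eq_of_effective_of_isPrincipal_sub` (rigidity): `ℓ(D) = 1`, `D, E ≥ 0`, `E - D` principal
  ⟹ `E = D`.
-/
import Mathlib
import Fermat.Prelude.Def_AlgebraicCurve_Repartitions
import Fermat.Agent.S24.Ord

set_option autoImplicit false

noncomputable section

namespace Fermat.Agent.S18.NonSpecial

open AlgebraicCurve

universe u v

variable {K : Type u} {F : Type v} [Field K] [Field F] [Algebra K F]

/-- `ℓ(D) = dim_K L(D)`. -/
def ell (D : Divisor K F) : ℕ := Module.finrank K (riemannRochSpace D)

theorem riemannRochSpace_mono {D D' : Divisor K F} (h : D ≤ D') :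
    riemannRochSpace D ≤ riemannRochSpace D' := by
  intro f hf
  rw [mem_riemannRochSpace_iff] at hf ⊢
  intro v
  rcases hf v with h0 | h1
  · exact Or.inl h0
  · exact Or.inr (le_trans (neg_le_neg (Finsupp.le_def.mp h v)) h1)

/-- Riemann's theorem for `F/K`, packaged as a hypothesis. -/
structure RiemannHyp (K : Type u) (F : Type v) [Field K] [Field F] [Algebra K F] (g : ℕ) :
    Prop where
  finite : ∀ D : Divisor K F, Module.Finite K (riemannRochSpace D)
  ell_zero : ell (0 : Divisor K F) = 1
  riemann_eq : ∃ c : ℤ, ∀ D : Divisor K F, c ≤ Divisor.degree D →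
    (ell D : ℤ) = Divisor.degree D + 1 - g
  deg_one : ∀ v : Place K F, v.deg = 1
  infinite : Infinite (Place K F)

theorem ell_mono {D D' : Divisor K F} (hfin : Module.Finite K (riemannRochSpace D'))
    (h : D ≤ D') : ell D ≤ ell D' :=
  Submodule.finrank_mono (riemannRochSpace_mono h)

theorem ell_lt_of_mem_of_not_mem {D D' : Divisor K F}
    (hfin : Module.Finite K (riemannRochSpace D')) (h : D ≤ D') {f : F}
    (hf : f ∈ riemannRochSpace D') (hf' : f ∉ riemannRochSpace D) : ell D < ell D' := by
  have hlt : riemannRochSpace D < riemannRochSpace D' :=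
    lt_of_le_of_ne (riemannRochSpace_mono h) (fun he => hf' (he ▸ hf))
  exact Submodule.finrank_lt_finrank_of_lt hlt

/-- the sum of the places of a finite set, as an effective divisor -/
def sumPlaces (T : Finset (Place K F)) : Divisor K F := ∑ Q ∈ T, Finsupp.single Q (1 : ℤ)

theorem sumPlaces_apply_of_mem {T : Finset (Place K F)} {v : Place K F} (h : v ∈ T) :
    sumPlaces T v = 1 := by
  classical
  unfold sumPlaces
  rw [Finsupp.finsetSum_apply]
  simp only [Finsupp.single_apply]
  rw [Finset.sum_ite_eq', if_pos h]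

theorem sumPlaces_apply_of_not_mem {T : Finset (Place K F)} {v : Place K F} (h : v ∉ T) :
    sumPlaces T v = 0 := by
  classical
  unfold sumPlaces
  rw [Finsupp.finsetSum_apply]
  simp only [Finsupp.single_apply]
  rw [Finset.sum_ite_eq', if_neg h]

theorem sumPlaces_nonneg (T : Finset (Place K F)) : 0 ≤ sumPlaces T := by
  classical
  rw [Finsupp.le_def]
  intro v
  by_cases h : v ∈ T
  · rw [sumPlaces_apply_of_mem h]; simp
  · rw [sumPlaces_apply_of_not_mem h]; simp

theorem sumPlaces_empty : sumPlaces (∅ : Finset (Place K F)) = 0 := by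
  simp [sumPlaces]

theorem sumPlaces_insert [DecidableEq (Place K F)] {T : Finset (Place K F)} {Q : Place K F}
    (hQ : Q ∉ T) : sumPlaces (insert Q T) = sumPlaces T + Finsupp.single Q 1 := by
  unfold sumPlaces
  rw [Finset.sum_insert hQ, add_comm]

theorem degree_sumPlaces (hdeg : ∀ v : Place K F, v.deg = 1) (T : Finset (Place K F)) :
    Divisor.degree (sumPlaces T) = T.card := by
  unfold sumPlaces
  rw [map_sum]
  simp [Divisor.degree_single, hdeg]

theorem single_nonneg (Q : Place K F) : (0 : Divisor K F) ≤ Finsupp.single Q 1 := by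
  classical
  rw [Finsupp.le_def]
  intro v
  rw [Finsupp.single_apply]
  split_ifs <;> simp

/-- an element of `L(D + Q) \ L(D)` has a pole of order exactly `D(Q) + 1` at `Q`; we only need
the inequality -/
theorem ord_lt_of_mem_of_not_mem {D : Divisor K F} {Q : Place K F} {f : F}
    (hf : f ∈ riemannRochSpace (D + Finsupp.single Q 1)) (hf' : f ∉ riemannRochSpace D) :
    f ≠ 0 ∧ Q.ord f < -D Q := by
  classical
  rw [mem_riemannRochSpace_iff] at hf hf'
  push Not at hf'
  obtain ⟨v, hv0, hv⟩ := hf'
  refine ⟨hv0, ?_⟩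
  by_cases hvQ : v = Q
  · subst hvQ; exact hv
  · exfalso
    rcases hf v with h0 | h1
    · exact hv0 h0
    · rw [Finsupp.add_apply, Finsupp.single_apply, if_neg (Ne.symm hvQ), add_zero] at h1
      exact absurd h1 (not_le.mpr hv)

/-- adding distinct "special" places raises `ℓ` by at least one each time -/
theorem ell_add_sumPlaces_ge (hfin : ∀ D : Divisor K F, Module.Finite K (riemannRochSpace D))
    (D : Divisor K F) (T : Finset (Place K F))
    (hT : ∀ Q ∈ T, ell D < ell (D + Finsupp.single Q 1)) :
    ell D + T.card ≤ ell (D + sumPlaces T) := by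
  classical
  induction T using Finset.induction_on with
  | empty => simp [sumPlaces_empty]
  | insert Q T hQ ih =>
    have ih' := ih (fun Q' hQ' => hT Q' (Finset.mem_insert_of_mem hQ'))
    have hQs := hT Q (Finset.mem_insert_self Q T)
    -- an element of `L(D+Q) \ L(D)`
    have hne : ¬ riemannRochSpace (D + Finsupp.single Q 1) ≤ riemannRochSpace D := by
      intro hle
      have := hfin D
      have := Submodule.finrank_mono hle
      exact absurd this (not_le.mpr hQs)
    obtain ⟨f, hf, hf'⟩ := SetLike.not_le_iff_exists.mp hne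
    obtain ⟨hf0, hord⟩ := ord_lt_of_mem_of_not_mem hf hf'
    rw [sumPlaces_insert hQ, Finset.card_insert_of_notMem hQ, ← add_assoc, ← add_assoc]
    have hstep : ell (D + sumPlaces T) < ell (D + sumPlaces T + Finsupp.single Q 1) := by
      refine ell_lt_of_mem_of_not_mem (hfin _) ?_ (f := f) ?_ ?_
      · exact le_add_of_nonneg_right (single_nonneg Q)
      · refine riemannRochSpace_mono ?_ hf
        have : D ≤ D + sumPlaces T := le_add_of_nonneg_right (sumPlaces_nonneg T)
        exact add_le_add this le_rfl
      · intro hmem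
        rw [mem_riemannRochSpace_iff] at hmem
        rcases hmem Q with h0 | h1
        · exact hf0 h0
        · rw [Finsupp.add_apply, sumPlaces_apply_of_not_mem hQ, add_zero] at h1
          exact absurd h1 (not_le.mpr hord)
    omega

/-- **(N2)** if `ℓ(D) = 1` and `deg D < g`, only finitely many places `Q` have `ℓ(D + Q) ≥ 2`. -/
theorem finite_special {g : ℕ} (h : RiemannHyp K F g) {D : Divisor K F} (hD1 : ell D = 1)
    (hdeg : Divisor.degree D < g) :
    {Q : Place K F | 2 ≤ ell (D + Finsupp.single Q 1)}.Finite := by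
  classical
  by_contra hinf
  rw [Set.not_finite] at hinf
  obtain ⟨c, hc⟩ := h.riemann_eq
  set M : ℕ := (c - Divisor.degree D).toNat with hM
  obtain ⟨T, hTsub, hTcard⟩ := hinf.exists_subset_card_eq M
  have hge := ell_add_sumPlaces_ge h.finite D T (fun Q hQ => by
    have : 2 ≤ ell (D + Finsupp.single Q 1) := hTsub (Finset.mem_coe.mpr hQ)
    omega)
  have hdegE : Divisor.degree (D + sumPlaces T) = Divisor.degree D + M := by
    rw [map_add, degree_sumPlaces h.deg_one, hTcard]
  have hcE : c ≤ Divisor.degree (D + sumPlaces T) := by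
    rw [hdegE]
    have := Int.self_le_toNat (c - Divisor.degree D)
    omega
  have heq := hc _ hcE
  rw [hdegE] at heq
  have hge' : (ell D : ℤ) + M ≤ ell (D + sumPlaces T) := by
    rw [hTcard] at hge
    exact_mod_cast hge
  rw [hD1] at hge'
  push_cast at hge'
  omega

/-- **(N3)** generic non-special divisors: for `m ≤ g` there are `m` distinct places, outside a
given finite set `B` and pairwise related by `R` (any symmetric relation with finite exceptional
sets), whose sum `D` has `ℓ(D) = 1`. -/
theorem exists_nonspecial {g : ℕ} (h : RiemannHyp K F g) (B : Set (Place K F)) (hB : B.Finite)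
    (R : Place K F → Place K F → Prop) (hR : ∀ Q, {Q' | ¬ R Q Q'}.Finite) (hsymm : ∀ a b, R a b → R b a)
    {m : ℕ} (hm : m ≤ g) :
    ∃ T : Finset (Place K F), T.card = m ∧ (∀ Q ∈ T, Q ∉ B) ∧
      (∀ Q ∈ T, ∀ Q' ∈ T, Q ≠ Q' → R Q Q') ∧ ell (sumPlaces T) = 1 := by
  classical
  induction m with
  | zero =>
    exact ⟨∅, rfl, by simp, by simp, by rw [sumPlaces_empty]; exact h.ell_zero⟩
  | succ m ih =>
    obtain ⟨T, hcard, hTB, hTR, hT1⟩ := ih (Nat.le_of_succ_le hm)
    have hdeg : Divisor.degree (sumPlaces T) < g := by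
      rw [degree_sumPlaces h.deg_one, hcard]
      exact_mod_cast hm
    have hspec := finite_special h hT1 hdeg
    have hbad : (B ∪ ↑T ∪ {Q | 2 ≤ ell (sumPlaces T + Finsupp.single Q 1)} ∪
        ⋃ Q ∈ T, {Q' | ¬ R Q Q'}).Finite := by
      refine ((hB.union T.finite_toSet).union hspec).union ?_
      exact Set.Finite.biUnion T.finite_toSet (fun Q _ => hR Q)
    have := h.infinite
    obtain ⟨Q', hQ'⟩ := hbad.exists_notMem
    simp only [Set.mem_union, Set.mem_iUnion, Set.mem_ofPred_eq, Finset.mem_coe, not_or,
      not_exists, not_not, not_le] at hQ'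
    obtain ⟨⟨⟨hQB, hQT⟩, hQs⟩, hQR⟩ := hQ'
    refine ⟨insert Q' T, ?_, ?_, ?_, ?_⟩
    · rw [Finset.card_insert_of_notMem hQT, hcard]
    · intro Q hQ
      rcases Finset.mem_insert.mp hQ with rfl | hQ
      · exact hQB
      · exact hTB Q hQ
    · intro Q hQ Q'' hQ'' hne
      rcases Finset.mem_insert.mp hQ with hQe | hQm
      · rcases Finset.mem_insert.mp hQ'' with hQe' | hQm'
        · exact absurd (hQe.trans hQe'.symm) hne
        · rw [hQe]
          exact hsymm _ _ (hQR Q'' hQm')
      · rcases Finset.mem_insert.mp hQ'' with hQe' | hQm'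
        · rw [hQe']
          exact hQR Q hQm
        · exact hTR Q hQm Q'' hQm' hne
    · rw [sumPlaces_insert hQT]
      have h1 : ell (sumPlaces T) ≤ ell (sumPlaces T + Finsupp.single Q' 1) :=
        ell_mono (h.finite _) (le_add_of_nonneg_right (single_nonneg Q'))
      omega

/-! ### Rigidity -/

theorem one_mem_riemannRochSpace {D : Divisor K F} (hD : 0 ≤ D) :
    (1 : F) ∈ riemannRochSpace D := by
  rw [mem_riemannRochSpace_iff]
  intro v
  right
  rw [Place.ord_one]
  have := Finsupp.le_def.mp hD v
  simp only [Finsupp.coe_zero, Pi.zero_apply] at this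
  omega

/-- **(N4) rigidity**: if `ℓ(D) = 1` with `D ≥ 0`, the only effective divisor linearly equivalent
to `D` is `D` itself. -/
theorem eq_of_effective_of_isPrincipal_sub {D E : Divisor K F}
    (hD : 0 ≤ D) (hD1 : ell D = 1) (hE : 0 ≤ E) (hprin : Divisor.IsPrincipal (E - D)) :
    E = D := by
  obtain ⟨f, -, hf⟩ := hprin
  have hfmem : f ∈ riemannRochSpace D := by
    rw [mem_riemannRochSpace_iff]
    intro v
    right
    rw [← hf v, Finsupp.sub_apply]
    have := Finsupp.le_def.mp hE v
    simp only [Finsupp.coe_zero, Pi.zero_apply] at this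
    omega
  have h1mem := one_mem_riemannRochSpace hD
  have hne : (⟨1, h1mem⟩ : riemannRochSpace D) ≠ 0 := by
    intro h0
    have := congrArg Subtype.val h0
    simp at this
  obtain ⟨c, hc⟩ := (finrank_eq_one_iff_of_nonzero' (⟨1, h1mem⟩ : riemannRochSpace D) hne).mp
    hD1 ⟨f, hfmem⟩
  have hcf : f = algebraMap K F c := by
    have := congrArg Subtype.val hc
    simp only [Submodule.coe_smul] at this
    rw [← this, Algebra.smul_def, mul_one]
  have hzero : E - D = 0 := by
    ext v
    rw [hf v, hcf, Fermat.Agent.S24.Ord.ord_algebraMap v c]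
    rfl
  exact sub_eq_zero.mp hzero

/-! ### `ℓ(D + Q) ≤ ℓ(D) + 1`, Riemann's inequality, effective representatives -/

section Step

open Fermat.Agent.S24.Ord

/-- the `K`-linear map `L(D + Q) → κ(Q)`, `f ↦ (π ^ (D(Q)+1) f) mod 𝔪_Q` -/
theorem exists_step_map (D : Divisor K F) (Q : Place K F) :
    ∃ φ : riemannRochSpace (D + Finsupp.single Q 1) →ₗ[K] Q.ResidueField,
      ∀ f : riemannRochSpace (D + Finsupp.single Q 1), φ f = 0 → (f : F) ∈ riemannRochSpace D := by
  classical
  obtain ⟨π, hπ⟩ := IsDiscreteValuationRing.exists_irreducible Q.toValuationSubring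
  have hπ0 : (π : F) ≠ 0 := by
    simpa [ne_eq, ZeroMemClass.coe_eq_zero] using hπ.ne_zero
  set n : ℤ := D Q + 1 with hn
  have hmem : ∀ f : F, f ∈ riemannRochSpace (D + Finsupp.single Q 1) →
      (π : F) ^ n * f ∈ Q.toValuationSubring := by
    intro f hf
    rcases eq_or_ne f 0 with rfl | hf0
    · rw [mul_zero]; exact Q.toValuationSubring.zero_mem
    · rw [mem_iff, ← ord_nonneg_iff Q (mul_ne_zero (zpow_ne_zero n hπ0) hf0),
        Q.ord_mul (zpow_ne_zero n hπ0) hf0, Q.ord_zpow, Q.ord_coe_irreducible hπ, mul_one]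
      have h1 := ((mem_riemannRochSpace_iff.mp hf) Q).resolve_left hf0
      rw [Finsupp.add_apply, Finsupp.single_eq_same] at h1
      omega
  let ψ : riemannRochSpace (D + Finsupp.single Q 1) →ₗ[K] Q.toValuationSubring :=
    { toFun := fun f => ⟨(π : F) ^ n * (f : F), hmem f f.2⟩
      map_add' := fun f g => by
        apply Subtype.ext
        simp only [Submodule.coe_add, mul_add]
        rfl
      map_smul' := fun c f => by
        apply Subtype.ext
        simp only [Submodule.coe_smul, RingHom.id_apply]
        rw [Algebra.smul_def, Algebra.smul_def]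
        show (π : F) ^ n * (algebraMap K F c * (f : F)) = algebraMap K F c * ((π : F) ^ n * (f : F))
        ring }
  let ρ : Q.toValuationSubring →ₗ[K] Q.ResidueField :=
    (IsScalarTower.toAlgHom K Q.toValuationSubring Q.ResidueField).toLinearMap
  refine ⟨ρ.comp ψ, ?_⟩
  intro f hf
  have hf' : IsLocalRing.residue Q.toValuationSubring (ψ f) = 0 := hf
  rw [IsLocalRing.residue_eq_zero_iff, mem_maximalIdeal_iff] at hf'
  have hval : Q.adicValuation ((π : F) ^ n * (f : F)) < 1 := hf'
  rw [mem_riemannRochSpace_iff]
  intro v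
  rcases eq_or_ne (f : F) 0 with h0 | hf0
  · exact Or.inl h0
  right
  by_cases hvQ : v = Q
  · subst hvQ
    rw [← ord_pos_iff v (mul_ne_zero (zpow_ne_zero n hπ0) hf0),
      v.ord_mul (zpow_ne_zero n hπ0) hf0, v.ord_zpow, v.ord_coe_irreducible hπ, mul_one] at hval
    omega
  · have h1 := ((mem_riemannRochSpace_iff.mp f.2) v).resolve_left hf0
    rw [Finsupp.add_apply, Finsupp.single_apply, if_neg (Ne.symm hvQ), add_zero] at h1
    exact h1

/-- **(N1)** adding a place of degree one raises `ℓ` by at most one. -/
theorem ell_add_single_le (hfin : ∀ D : Divisor K F, Module.Finite K (riemannRochSpace D))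
    (D : Divisor K F) {Q : Place K F} (hQ : Q.deg = 1) :
    ell (D + Finsupp.single Q 1) ≤ ell D + 1 := by
  obtain ⟨φ, hφ⟩ := exists_step_map D Q
  have := hfin D
  have := hfin (D + Finsupp.single Q 1)
  have hQfin : Module.Finite K Q.ResidueField :=
    Module.finite_of_finrank_pos (by rw [show Module.finrank K Q.ResidueField = Q.deg from rfl, hQ]; exact one_pos)
  have hrk := LinearMap.finrank_range_add_finrank_ker φ
  have hrange : Module.finrank K (LinearMap.range φ) ≤ 1 := by
    have := Submodule.finrank_le (LinearMap.range φ)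
    rwa [show Module.finrank K Q.ResidueField = Q.deg from rfl, hQ] at this
  have hker : Module.finrank K (LinearMap.ker φ) ≤ ell D := by
    let ι : LinearMap.ker φ →ₗ[K] riemannRochSpace D :=
      { toFun := fun f => ⟨((f : riemannRochSpace (D + Finsupp.single Q 1)) : F),
          hφ f.1 (LinearMap.mem_ker.mp f.2)⟩
        map_add' := fun f g => rfl
        map_smul' := fun c f => rfl }
    have hinj : Function.Injective ι := by
      intro f g hfg
      have := congrArg Subtype.val hfg
      exact Subtype.ext (Subtype.ext this)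
    exact LinearMap.finrank_le_finrank_of_injective hinj
  unfold ell at *
  omega

end Step

/-- **Riemann's inequality** `deg D + 1 - g ≤ ℓ(D)` for every divisor, from `RiemannHyp`. -/
theorem riemann_ineq {g : ℕ} (h : RiemannHyp K F g) (D : Divisor K F) :
    Divisor.degree D + 1 - g ≤ ell D := by
  classical
  obtain ⟨c, hc⟩ := h.riemann_eq
  have := h.infinite
  -- add `M` distinct places
  set M : ℕ := (c - Divisor.degree D).toNat with hM
  obtain ⟨T, hTcard⟩ : ∃ T : Finset (Place K F), T.card = M := by
    obtain ⟨T, -, hT⟩ := (Set.infinite_univ (α := Place K F)).exists_subset_card_eq M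
    exact ⟨T, hT⟩
  -- `ℓ(D + ∑ T) ≤ ℓ(D) + #T`
  have hle : ∀ T : Finset (Place K F), ell (D + sumPlaces T) ≤ ell D + T.card := by
    intro T
    induction T using Finset.induction_on with
    | empty => simp [sumPlaces_empty]
    | insert Q T hQ ih =>
      rw [sumPlaces_insert hQ, Finset.card_insert_of_notMem hQ, ← add_assoc]
      have := ell_add_single_le h.finite (D + sumPlaces T) (h.deg_one Q)
      omega
  have hdegE : Divisor.degree (D + sumPlaces T) = Divisor.degree D + M := by
    rw [map_add, degree_sumPlaces h.deg_one, hTcard]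
  have hcE : c ≤ Divisor.degree (D + sumPlaces T) := by
    rw [hdegE]
    have := Int.self_le_toNat (c - Divisor.degree D)
    omega
  have heq := hc _ hcE
  rw [hdegE] at heq
  have h2 : (ell (D + sumPlaces T) : ℤ) ≤ ell D + M := by
    have := hle T
    rw [hTcard] at this
    exact_mod_cast this
  omega

/-- **(N5)** every divisor of degree `≥ g` is linearly equivalent to an effective one. -/
theorem exists_effective {g : ℕ} (h : RiemannHyp K F g) [HasPrincipalDivisors K F]
    {D : Divisor K F} (hdeg : (g : ℤ) ≤ Divisor.degree D) :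
    ∃ E : Divisor K F, 0 ≤ E ∧ Divisor.IsPrincipal (E - D) := by
  have hpos : 0 < ell D := by
    have := riemann_ineq h D
    omega
  have := h.finite D
  have hnt : Nontrivial (riemannRochSpace D) := Module.nontrivial_of_finrank_pos hpos
  obtain ⟨f, hf⟩ := exists_ne (0 : riemannRochSpace D)
  have hf0 : (f : F) ≠ 0 := fun h0 => hf (Subtype.ext h0)
  obtain ⟨P, hP, -⟩ := HasPrincipalDivisors.exists_divisor (K := K) (f : F) hf0
  refine ⟨D + P, ?_, ⟨(f : F), hf0, fun v => ?_⟩⟩
  · rw [Finsupp.le_def]
    intro v
    have h1 := ((mem_riemannRochSpace_iff.mp f.2) v).resolve_left hf0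
    rw [Finsupp.add_apply, hP v]
    simp only [Finsupp.coe_zero, Pi.zero_apply]
    omega
  · rw [add_sub_cancel_left, hP v]

end Fermat.Agent.S18.NonSpecial
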