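import Mathlib
import Fermat.Prelude.Def_AlgebraicCurve_DivisorClassGroup
import Fermat.Prelude.Def_AlgebraicCurve_Repartitions

/-!
# PROJECT H (S18), block D: interface of the abstract core

`RedDatum A π r` is what block B extracts from the hypothesis `ReductionInputsAlong` of S18:
a "Gauss" valuation ring `O` of the function field `FL` over the valued field `(L, A)`, a reduction
homomorphism `red : O →+* Fk` to the function field over the residue field, and the compatibility
of the place map `r` with divisors of units of `O`.
-/

set_option autoImplicit false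

namespace Fermat.Agent.S18.CoreDefs

open AlgebraicCurve

variable {L : Type*} [Field L] {FL : Type*} [Field FL] [Algebra L FL]
variable {k : Type*} [Field k] {Fk : Type*} [Field Fk] [Algebra k Fk]

/-- The abstract reduction datum (block B output, block D input). -/
structure RedDatum (A : ValuationSubring L) (π : A →+* k)
    (r : Place L FL → Place k Fk) where
  /-- the Gauss valuation ring of `FL` -/
  O : ValuationSubring FL
  /-- the reduction homomorphism -/
  red : O →+* Fk
  /-- constants of `A` are Gauss-integral -/
  algebraMap_mem : ∀ a : A, algebraMap L FL (a : L) ∈ O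
  /-- `red` restricted to constants is `π` -/
  red_algebraMap : ∀ a : A, red ⟨algebraMap L FL (a : L), algebraMap_mem a⟩ = algebraMap k Fk (π a)
  /-- the kernel of `red` is the maximal ideal of `O` -/
  red_eq_zero_iff : ∀ u : O, red u = 0 ↔ ¬ IsUnit u
  /-- the value group of `O` is that of `A`: every nonzero function is a constant times a unit -/
  exists_const_mul_unit : ∀ f : FL, f ≠ 0 →
    ∃ c : L, c ≠ 0 ∧ ∃ u : Oˣ, f = algebraMap L FL c * ((u : O) : FL)
  /-- `O ∩ L = A` -/
  mem_of_algebraMap_mem : ∀ c : L, algebraMap L FL c ∈ O → c ∈ A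
  /-- compatibility of the place map with divisors of Gauss units -/
  compat : ∀ (u : Oˣ) (D : Divisor L FL), (∀ P : Place L FL, D P = P.ord ((u : O) : FL)) →
    ∀ Q : Place k Fk, Finsupp.mapDomain r D Q = Q.ord (red (u : O))

/-- Riemann's inequality in the only form block D uses: every divisor of degree `≥ g` has a
nonzero section. -/
def RiemannGe (L FL : Type*) [Field L] [Field FL] [Algebra L FL] (g : ℕ) : Prop :=
  ∀ D : Divisor L FL, (g : ℤ) ≤ Divisor.degree D → ∃ f : FL, f ≠ 0 ∧ f ∈ riemannRochSpace D

/-- Existence of `g` generic places whose sum is rigid (`ℓ(∑ Qᵢ) = 1`), avoiding any finite set. -/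
def RigidGeneric (k Fk : Type*) [Field k] [Field Fk] [Algebra k Fk] (g : ℕ) : Prop :=
  ∀ Bad : Set (Place k Fk), Bad.Finite →
    ∃ Qs : Fin g → Place k Fk, Function.Injective Qs ∧ (∀ i, Qs i ∉ Bad) ∧
      ∀ y : Fk, y ∈ riemannRochSpace (∑ i, Finsupp.single (Qs i) (1 : ℤ)) →
        ∃ c : k, y = algebraMap k Fk c

end Fermat.Agent.S18.CoreDefs
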