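/-
PROJECT H (S18), block B, slice B1, part 2 (helper9): the valuation structure of
`Fermat/Agent/S18/GaussFromH.lean` specialised to the frozen S18 setting
`L = AlgebraicClosure ℚ`, `π = IsLocalRing.residue A`, `h : ReductionInputsModL A N`.

* `hasPrincipalDivisors_of_isFF`, `const_of_ord_eq_zero` : the two function-field inputs
  (principal divisors exist; no zeros and poles ⇒ constant) from the S24 toolkit;
* `hasRepModL h : HasRep A (residue A) N`;
* `redDatumModL h : CoreDefs.RedDatum A (residue A) (placeReductionModL h)` (block D input);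
* `redV_surjective_modL`, `placeReductionModL_surjective`;
* `jV h`, `redV_jV` : `j` as an element of the Gauss valuation ring, with reduction `jqModC k`.
-/
import Mathlib
import Fermat.Agent.S18.GaussFromH
import Fermat.Agent.S24.Degree
import Fermat.Agent.S24.Hurwitz

set_option autoImplicit false

noncomputable section

namespace Fermat.Agent.S18.GaussFromHBar

open AlgebraicCurve ModularCurve IntermediateField
open Fermat.Agent.S24.FF Fermat.Agent.S24.Hurwitz Fermat.Agent.S24.Ord
open Fermat.Agent.S18.GaussFromH

section FFGeneral

universe u w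

variable {K : Type w} {F : Type u} [Field K] [Field F] [Algebra K F] [IsAlgClosed K] [CharZero K]
variable {x : F}

/-- Principal divisors exist in a function field (characteristic zero, S24 toolkit). -/
theorem hasPrincipalDivisors_of_isFF (hx : IsFF K x) : HasPrincipalDivisors K F := by
  classical
  refine ⟨fun f hf => ?_⟩
  by_cases hconst : ∃ c : K, algebraMap K F c = f
  · obtain ⟨c, rfl⟩ := hconst
    exact ⟨0, fun v => by rw [ord_algebraMap]; rfl, map_zero _⟩
  · push Not at hconst
    have hf' : IsFF K f := hx.of_not_mem_range hconst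
    have hsupp : ∀ v : Place K F, v.ord f ≠ 0 → v ∈ zeros hf' 0 ∪ poles hf' := by
      intro v hv
      rw [Finset.mem_union, mem_zeros, mem_poles, map_zero, sub_zero]
      rcases lt_or_gt_of_ne hv with h | h
      · exact Or.inr ((ord_neg_iff v hf).mp h)
      · exact Or.inl ((ord_pos_iff v hf).mp h)
    let D : Divisor K F := Finsupp.onFinset (zeros hf' 0 ∪ poles hf') (fun v => v.ord f) hsupp
    have hD : ∀ v, D v = v.ord f := fun v => rfl
    exact ⟨D, hD, degree_eq_zero_of_ord hx hf D hD⟩

/-- A nonzero function without zeros and poles is constant. -/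
theorem const_of_ord_eq_zero (hx : IsFF K x) (g : F) (hg : g ≠ 0)
    (h : ∀ P : Place K F, P.ord g = 0) : ∃ c : K, g = algebraMap K F c := by
  by_contra hne
  push Not at hne
  have hg' : IsFF K g := hx.of_not_mem_range (fun c hc => hne c hc.symm)
  have hsum := sum_poles hg'
  have hpos : 0 < Module.finrank K⟮g⟯ F := by
    have := hg'.finite
    exact Module.finrank_pos
  rw [Finset.sum_congr rfl (fun v _ => by rw [h v, neg_zero])] at hsum
  simp only [Finset.sum_const_zero] at hsum
  omega

end FFGeneral

section ModL

local notation "Kb" => AlgebraicClosure ℚ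

set_option synthInstance.maxHeartbeats 400000

variable {A : ValuationSubring (AlgebraicClosure ℚ)} {N : ℕ} [NeZero N]

theorem hasPrincipalDivisors_bar (N : ℕ) [NeZero N] :
    HasPrincipalDivisors Kb ↥(modularFunctionFieldBar N) :=
  hasPrincipalDivisors_of_isFF (Fermat.Agent.S24.Degree.isFF N)

theorem residue_eq_zero_of_not_isUnit (a : A) (ha : ¬ IsUnit a) : IsLocalRing.residue A a = 0 := by
  rw [IsLocalRing.residue_eq_zero_iff]
  exact (IsLocalRing.mem_maximalIdeal a).mpr ha

/-- The representation `f = c · a / b` of every nonzero function, from `h`. -/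
theorem hasRepModL (h : ReductionInputsModL A N) : HasRep A (IsLocalRing.residue A) N := by
  haveI := hasPrincipalDivisors_bar N
  exact hasRep_of_gen (fun g hg hord => const_of_ord_eq_zero (Fermat.Agent.S24.Degree.isFF N) g hg hord)
    h.choose_spec.2

/-- **Block B deliverable**: the reduction datum of block D, in the frozen S18 setting. -/
def redDatumModL (h : ReductionInputsModL A N) :
    Fermat.Agent.S18.CoreDefs.RedDatum (FL := ↥(modularFunctionFieldBar N))
      (Fk := ↥(modularFunctionFieldFullC (IsLocalRing.ResidueField A) N)) A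
      (IsLocalRing.residue A) (placeReductionModL h) :=
  haveI := hasPrincipalDivisors_bar N
  redDatum A (IsLocalRing.residue A) N (isPlaceReductionModL_placeReductionModL h) (hasRepModL h)
    residue_eq_zero_of_not_isUnit

theorem redV_surjective_modL (h : ReductionInputsModL A N) :
    Function.Surjective (redV A (IsLocalRing.residue A) N (hasRepModL h)) :=
  redV_surjective (hasRepModL h) IsLocalRing.residue_surjective

/-- The place map of `h` is onto. -/
theorem placeReductionModL_surjective (h : ReductionInputsModL A N) :
    Function.Surjective (placeReductionModL h) := by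
  haveI := hasPrincipalDivisors_bar N
  exact placeMap_surjective (isPlaceReductionModL_placeReductionModL h)
    IsLocalRing.residue_surjective

theorem toFL_jI_eq_jgen :
    toFL A (IsLocalRing.residue A) N (jI A (IsLocalRing.residue A) N) =
      Fermat.Agent.S24.DegreeAlg.jgen N := by
  apply Subtype.ext
  rw [coe_toFL_jI, Fermat.Agent.S24.DegreeAlg.coe_jgen]

/-- `j` lies in the Gauss valuation ring. -/
theorem jgen_mem_OwV (h : ReductionInputsModL A N) :
    Fermat.Agent.S24.DegreeAlg.jgen N ∈ OwV A (IsLocalRing.residue A) N (hasRepModL h) := by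
  rw [← toFL_jI_eq_jgen (A := A)]
  exact toFL_mem_OwV _ _

/-- The reduction of `j` is `J(q)` over the residue field. -/
theorem redV_jgen (h : ReductionInputsModL A N) :
    redV A (IsLocalRing.residue A) N (hasRepModL h) ⟨_, jgen_mem_OwV h⟩ =
      ⟨jqModC (IsLocalRing.ResidueField A), jqModC_mem_full (IsLocalRing.ResidueField A) N⟩ := by
  have h1 : (⟨_, jgen_mem_OwV h⟩ : ↥(OwV A (IsLocalRing.residue A) N (hasRepModL h))) =
      ⟨toFL A (IsLocalRing.residue A) N (jI A (IsLocalRing.residue A) N),
        toFL_mem_OwV (hasRepModL h) _⟩ :=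
    Subtype.ext toFL_jI_eq_jgen.symm
  rw [h1, redV_toFL]
  exact Subtype.ext coe_red_jI

/-! The same facts stated through the fields of `redDatumModL h` (block D's `x : R.O`). -/

theorem jgen_mem_O (h : ReductionInputsModL A N) :
    Fermat.Agent.S24.DegreeAlg.jgen N ∈ (redDatumModL h).O :=
  jgen_mem_OwV h

theorem red_jgen (h : ReductionInputsModL A N) :
    (redDatumModL h).red ⟨Fermat.Agent.S24.DegreeAlg.jgen N, jgen_mem_O h⟩ =
      ⟨jqModC (IsLocalRing.ResidueField A), jqModC_mem_full (IsLocalRing.ResidueField A) N⟩ :=
  redV_jgen h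

theorem red_surjective (h : ReductionInputsModL A N) :
    Function.Surjective (redDatumModL h).red :=
  redV_surjective_modL h

/-- Membership in the Gauss valuation ring of the datum, unfolded. -/
theorem mem_O_iff (h : ReductionInputsModL A N) {f : ↥(modularFunctionFieldBar N)} :
    f ∈ (redDatumModL h).O ↔
      ∃ a b : ↥(intRing A (IsLocalRing.residue A) N),
        red A (IsLocalRing.residue A) N b ≠ 0 ∧
          f * toFL A (IsLocalRing.residue A) N b = toFL A (IsLocalRing.residue A) N a :=
  Iff.rfl

end ModL

end Fermat.Agent.S18.GaussFromHBar
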