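/-
PROJECT H (S18), utility file (helper27).

Basic facts on the residue field `k = A / 𝔪_A` of a valuation subring `A` of an algebraically
closed field `K` (in the application `K = ℚ̄` and `A` lies over a prime `ℓ ∤ N`):

* `exists_root_of_monic` : a nonconstant monic polynomial over `A` has a root in `A`;
* `isAlgClosed_residueField` : `k` is algebraically closed;
* `charP_residueField` : `k` has characteristic `ℓ` when `A.LiesOverPrime ℓ`;
* `natCast_ne_zero_of_not_dvd` : `(N : k) ≠ 0` when `ℓ ∤ N`;
* `psiLeRelrank_residueField` : Igusa's bound `ψ(N) ≤ [k(J(q^d) : d ∣ N) : k(J)]` (S28) for this `k`.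
-/
import Fermat.Agent.S28.IgusaDegree
import Fermat.Prelude.Def_FLTPrelim_Ramification

set_option autoImplicit false

namespace Fermat.Agent.S18.ResidueBasics

open Polynomial IsLocalRing

section AlgClosed

variable {K : Type*} [Field K] (A : ValuationSubring K)

/-- A nonconstant monic polynomial over a valuation subring of an algebraically closed field has a
root in the valuation subring. -/
theorem exists_root_of_monic [IsAlgClosed K] {p : A[X]} (hp : p.Monic) (hdeg : p.degree ≠ 0) :
    ∃ a : A, p.eval a = 0 := by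
  have hpK : (p.map (algebraMap A K)).degree ≠ 0 := by
    rwa [hp.degree_map]
  obtain ⟨x, hx⟩ := IsAlgClosed.exists_root (p.map (algebraMap A K)) hpK
  have hint : IsIntegral A x := ⟨p, hp, by rwa [IsRoot.def, eval_map] at hx⟩
  obtain ⟨a, rfl⟩ := IsIntegrallyClosed.algebraMap_eq_of_integral hint
  refine ⟨a, ?_⟩
  have : algebraMap A K (p.eval a) = 0 := by
    rw [IsRoot.def, eval_map, eval₂_at_apply] at hx
    exact hx
  exact (FaithfulSMul.algebraMap_injective A K) (by rw [this, map_zero])

/-- The residue field of a valuation subring of an algebraically closed field is algebraically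
closed. -/
theorem isAlgClosed_residueField [IsAlgClosed K] : IsAlgClosed (ResidueField A) := by
  refine IsAlgClosed.of_exists_root _ fun q hq hirr => ?_
  obtain ⟨p, hpq, hpdeg, hpmonic⟩ :=
    Polynomial.lifts_and_degree_eq_and_monic
      ((Polynomial.mem_lifts q).mpr
        (Polynomial.map_surjective (residue A) residue_surjective q)) hq
  have hdeg : p.degree ≠ 0 := by
    rw [hpdeg]
    exact (Polynomial.degree_pos_of_irreducible hirr).ne'
  obtain ⟨a, ha⟩ := exists_root_of_monic A hpmonic hdeg
  refine ⟨residue A a, ?_⟩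
  rw [← hpq, eval_map, eval₂_at_apply, ha, map_zero]

end AlgClosed

section CharL

variable {K : Type*} [Field K] (A : ValuationSubring K)

theorem natCast_mem_maximalIdeal {ℓ : ℕ} (hA : A.LiesOverPrime ℓ) :
    ((ℓ : ℕ) : A) ∈ maximalIdeal A := by
  rw [← ValuationSubring.coe_mem_nonunits_iff]
  exact_mod_cast hA

theorem residue_natCast_eq_zero {ℓ : ℕ} (hA : A.LiesOverPrime ℓ) :
    ((ℓ : ℕ) : ResidueField A) = 0 := by
  have h := (residue_eq_zero_iff ((ℓ : ℕ) : A)).mpr (natCast_mem_maximalIdeal A hA)
  rwa [map_natCast] at h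

/-- The residue field of a valuation subring lying over `ℓ` has characteristic `ℓ`. -/
theorem charP_residueField {ℓ : ℕ} [hℓ : Fact ℓ.Prime] (hA : A.LiesOverPrime ℓ) :
    CharP (ResidueField A) ℓ :=
  (CharP.charP_iff_prime_eq_zero hℓ.out).mpr (residue_natCast_eq_zero A hA)

theorem natCast_ne_zero_of_not_dvd {ℓ : ℕ} [hℓ : Fact ℓ.Prime] (hA : A.LiesOverPrime ℓ)
    {N : ℕ} (hN : ¬ ℓ ∣ N) : (N : ResidueField A) ≠ 0 := by
  have := charP_residueField A hA
  rwa [Ne, CharP.cast_eq_zero_iff (ResidueField A) ℓ]

end CharL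

section Igusa

open ModularCurve

variable {K : Type*} [Field K] [IsAlgClosed K] (A : ValuationSubring K)

/-- **Igusa's degree bound (S28) over the residue field** of a valuation subring of an
algebraically closed field lying over a prime `ℓ ∤ N`:
`ψ(N) ≤ [k(J(q^d) : d ∣ N) : k(J)]`, `k = ResidueField A`. -/
theorem psiLeRelrank_residueField {ℓ : ℕ} [Fact ℓ.Prime] (hA : A.LiesOverPrime ℓ)
    (N : ℕ) [NeZero N] (hN : ¬ ℓ ∣ N) :
    Fermat.Agent.S28.Defs.PsiLeRelrank (ResidueField A) N :=
  haveI := isAlgClosed_residueField A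
  Fermat.Agent.S28.IgusaDegree.psiLeRelrank_of_isAlgClosed (ResidueField A) N
    (natCast_ne_zero_of_not_dvd A hA hN)

end Igusa

end Fermat.Agent.S18.ResidueBasics
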