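import Mathlib
import Fermat.Agent.S18.CoreDefs
import Fermat.Agent.S24.Ord

/-!
# PROJECT H (S18), block D: elementary facts on `Place.ord`, `Finsupp.mapDomain` and `RedDatum`
-/

set_option autoImplicit false

namespace Fermat.Agent.S18.CoreOrd

open AlgebraicCurve Fermat.Agent.S18.CoreDefs Fermat.Agent.S24.Ord WithZero

section Ord

variable {K : Type*} {F : Type*} [Field K] [Field F] [Algebra K F]

theorem ord_neg' (v : Place K F) (f : F) : v.ord (-f) = v.ord f := by
  simp [Place.ord, Valuation.map_neg]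

theorem ord_sub_comm (v : Place K F) (f g : F) : v.ord (f - g) = v.ord (g - f) := by
  rw [← ord_neg' v (f - g), neg_sub]

/-- the ultrametric inequality (with the convention `ord 0 = 0` the sum must be nonzero) -/
theorem min_le_ord_add (v : Place K F) {f g : F} (hfg : f + g ≠ 0) :
    min (v.ord f) (v.ord g) ≤ v.ord (f + g) := by
  rcases eq_or_ne f 0 with rfl | hf
  · rw [zero_add]; exact min_le_right _ _
  rcases eq_or_ne g 0 with rfl | hg
  · rw [add_zero]; exact min_le_left _ _
  have h := Valuation.map_add v.adicValuation f g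
  rw [adicValuation_eq v hf, adicValuation_eq v hg, adicValuation_eq v hfg] at h
  rcases le_max_iff.mp h with h | h
  · rw [exp_le_exp] at h
    exact (min_le_left _ _).trans (by omega)
  · rw [exp_le_exp] at h
    exact (min_le_right _ _).trans (by omega)

theorem min_le_ord_sub (v : Place K F) {f g : F} (hfg : f - g ≠ 0) :
    min (v.ord f) (v.ord g) ≤ v.ord (f - g) := by
  have := min_le_ord_add v (f := f) (g := -g) (by rwa [← sub_eq_add_neg])
  rwa [ord_neg', ← sub_eq_add_neg] at this

theorem ord_add_nonneg (v : Place K F) {f g : F} (hf : 0 ≤ v.ord f) (hg : 0 ≤ v.ord g) :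
    0 ≤ v.ord (f + g) := by
  rcases eq_or_ne (f + g) 0 with h | h
  · rw [h, Place.ord_zero]
  · exact (le_min hf hg).trans (min_le_ord_add v h)

theorem ord_sub_nonneg (v : Place K F) {f g : F} (hf : 0 ≤ v.ord f) (hg : 0 ≤ v.ord g) :
    0 ≤ v.ord (f - g) := by
  rcases eq_or_ne (f - g) 0 with h | h
  · rw [h, Place.ord_zero]
  · exact (le_min hf hg).trans (min_le_ord_sub v h)

/-- if `ord f < ord g` then `ord (f + g) = ord f` -/
theorem ord_add_eq_of_lt (v : Place K F) {f g : F} (hf : f ≠ 0) (hg : g ≠ 0)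
    (h : v.ord f < v.ord g) : v.ord (f + g) = v.ord f := by
  have hfg : f + g ≠ 0 := by
    intro h0
    have : f = -g := eq_neg_of_add_eq_zero_left h0
    rw [this, ord_neg'] at h
    exact lt_irrefl _ h
  have h1 : v.adicValuation g < v.adicValuation f := by
    rw [adicValuation_eq v hf, adicValuation_eq v hg, exp_lt_exp]
    omega
  have h2 := Valuation.map_add_eq_of_lt_left v.adicValuation h1
  rw [adicValuation_eq v hf, adicValuation_eq v hfg] at h2
  have := exp_injective h2
  omega

theorem ord_const_mul (v : Place K F) {c : K} (hc : c ≠ 0) (f : F) :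
    v.ord (algebraMap K F c * f) = v.ord f := by
  rcases eq_or_ne f 0 with rfl | hf
  · simp
  rw [v.ord_mul ((map_ne_zero_iff _ (algebraMap K F).injective).mpr hc) hf, ord_algebraMap,
    zero_add]

theorem ord_mul_const (v : Place K F) {c : K} (hc : c ≠ 0) (f : F) :
    v.ord (f * algebraMap K F c) = v.ord f := by
  rw [mul_comm, ord_const_mul v hc]

theorem ord_div_const (v : Place K F) {c : K} (hc : c ≠ 0) (f : F) :
    v.ord (f / algebraMap K F c) = v.ord f := by
  rw [div_eq_mul_inv, ← map_inv₀, ord_mul_const v (inv_ne_zero hc)]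

theorem ord_div (v : Place K F) {f g : F} (hf : f ≠ 0) (hg : g ≠ 0) :
    v.ord (f / g) = v.ord f - v.ord g := by
  rw [div_eq_mul_inv, v.ord_mul hf (inv_ne_zero hg), v.ord_inv, sub_eq_add_neg]

theorem ord_pow (v : Place K F) (f : F) (n : ℕ) : v.ord (f ^ n) = n * v.ord f := by
  have := v.ord_zpow f (n : ℤ)
  rwa [zpow_natCast] at this

/-- a function with a zero or a pole is not a constant -/
theorem ne_algebraMap_of_ord_ne_zero (v : Place K F) {f : F} (h : v.ord f ≠ 0) (c : K) :
    f ≠ algebraMap K F c := by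
  rintro rfl
  exact h (ord_algebraMap v c)

/-- a place of degree one: every regular function has a value -/
theorem exists_value (v : Place K F) (hv : v.deg = 1) {f : F} (hf : 0 ≤ v.ord f) :
    ∃ c : K, f = algebraMap K F c ∨ 0 < v.ord (f - algebraMap K F c) := by
  have hmem : f ∈ v.toValuationSubring := by
    rcases eq_or_ne f 0 with rfl | hf0
    · exact zero_mem _
    · exact (mem_iff v f).mpr ((ord_nonneg_iff v hf0).mp hf)
  have h1 : Module.finrank K v.ResidueField = 1 := hv
  obtain ⟨c, hc⟩ := (finrank_eq_one_iff_of_nonzero' (1 : v.ResidueField) one_ne_zero).mp h1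
    (IsLocalRing.residue v.toValuationSubring ⟨f, hmem⟩)
  refine ⟨c, ?_⟩
  by_cases hfc : f = algebraMap K F c
  · exact Or.inl hfc
  right
  have hne : f - algebraMap K F c ≠ 0 := sub_ne_zero.mpr hfc
  rw [ord_pos_iff v hne]
  have hz : (⟨f, hmem⟩ : v.toValuationSubring) - algebraMap K v.toValuationSubring c ∈
      IsLocalRing.maximalIdeal v.toValuationSubring := by
    rw [← IsLocalRing.residue_eq_zero_iff, map_sub, sub_eq_zero, ← hc, Algebra.smul_def, mul_one]
    rfl
  have := (mem_maximalIdeal_iff v _).mp hz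
  simpa using this

end Ord

section MapDomain

variable {α β : Type*}

/-- the value of a pushed-forward divisor is the sum over the fibre -/
theorem mapDomain_apply_eq_sum [DecidableEq β] (r : α → β) (D : α →₀ ℤ) (Q : β) :
    Finsupp.mapDomain r D Q = ∑ P ∈ D.support with r P = Q, D P := by
  rw [Finsupp.mapDomain, Finsupp.sum_apply, Finsupp.sum, Finset.sum_filter]
  refine Finset.sum_congr rfl fun P _ => ?_
  rw [Finsupp.single_apply]

theorem mapDomain_nonneg (r : α → β) (D : α →₀ ℤ) (Q : β)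
    (h : ∀ P, r P = Q → 0 ≤ D P) : 0 ≤ Finsupp.mapDomain r D Q := by
  classical
  rw [mapDomain_apply_eq_sum]
  exact Finset.sum_nonneg fun P hP => h P (Finset.mem_filter.mp hP).2

theorem le_mapDomain (r : α → β) (D : α →₀ ℤ) (Q : β)
    (h : ∀ P, r P = Q → 0 ≤ D P) (P0 : α) (hP0 : r P0 = Q) : D P0 ≤ Finsupp.mapDomain r D Q := by
  classical
  rw [mapDomain_apply_eq_sum]
  by_cases hmem : P0 ∈ D.support
  · exact Finset.single_le_sum (f := fun P => D P)
      (fun P hP => h P (Finset.mem_filter.mp hP).2) (Finset.mem_filter.mpr ⟨hmem, hP0⟩)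
  · rw [Finsupp.notMem_support_iff.mp hmem]
    exact Finset.sum_nonneg fun P hP => h P (Finset.mem_filter.mp hP).2

theorem mapDomain_eq_zero_of_forall (r : α → β) (D : α →₀ ℤ) (Q : β)
    (h : ∀ P, r P = Q → D P = 0) : Finsupp.mapDomain r D Q = 0 := by
  classical
  rw [mapDomain_apply_eq_sum]
  exact Finset.sum_eq_zero fun P hP => h P (Finset.mem_filter.mp hP).2

/-- if the fibre sum is `1` and all terms are `≥ 0`, exactly one term is nonzero and it is `1` -/
theorem exists_unique_of_mapDomain_eq_one (r : α → β) (D : α →₀ ℤ) (Q : β)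
    (h : ∀ P, r P = Q → 0 ≤ D P) (h1 : Finsupp.mapDomain r D Q = 1) :
    ∃ P0, r P0 = Q ∧ D P0 = 1 ∧ ∀ P, r P = Q → P ≠ P0 → D P = 0 := by
  classical
  rw [mapDomain_apply_eq_sum] at h1
  have hex : ∃ P0 ∈ D.support.filter (fun P => r P = Q), 0 < D P0 := by
    by_contra hcon
    push Not at hcon
    have : ∑ P ∈ D.support with r P = Q, D P ≤ 0 := Finset.sum_nonpos hcon
    omega
  obtain ⟨P0, hP0m, hP0pos⟩ := hex
  have hP0 : r P0 = Q := (Finset.mem_filter.mp hP0m).2
  have hsplit := Finset.add_sum_erase (D.support.filter (fun P => r P = Q)) (fun P => D P) hP0m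
  have hrest_nonneg : 0 ≤ ∑ P ∈ (D.support.filter (fun P => r P = Q)).erase P0, D P :=
    Finset.sum_nonneg fun P hP => h P (Finset.mem_filter.mp (Finset.mem_of_mem_erase hP)).2
  have hD1 : D P0 = 1 := by
    omega
  have hrest0 : ∑ P ∈ (D.support.filter (fun P => r P = Q)).erase P0, D P = 0 := by
    omega
  refine ⟨P0, hP0, hD1, fun P hP hne => ?_⟩
  by_cases hmem : P ∈ D.support
  · have hPm : P ∈ (D.support.filter (fun P => r P = Q)).erase P0 :=
      Finset.mem_erase.mpr ⟨hne, Finset.mem_filter.mpr ⟨hmem, hP⟩⟩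
    exact (Finset.sum_eq_zero_iff_of_nonneg
      (fun P hP => h P (Finset.mem_filter.mp (Finset.mem_of_mem_erase hP)).2)).mp hrest0 P hPm
  · exact Finsupp.notMem_support_iff.mp hmem

end MapDomain

section Red

variable {L : Type*} [Field L] {FL : Type*} [Field FL] [Algebra L FL]
variable {k : Type*} [Field k] {Fk : Type*} [Field Fk] [Algebra k Fk]
variable {A : ValuationSubring L} {π : A →+* k} {r : Place L FL → Place k Fk}
variable (R : RedDatum A π r)

/-- constants of `A` as elements of the Gauss ring -/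
def constO (a : A) : R.O := ⟨algebraMap L FL (a : L), R.algebraMap_mem a⟩

@[simp]
theorem coe_constO (a : A) : ((constO R a : R.O) : FL) = algebraMap L FL (a : L) := rfl

theorem red_constO (a : A) : R.red (constO R a) = algebraMap k Fk (π a) := R.red_algebraMap a

theorem isUnit_iff_red_ne_zero (u : R.O) : IsUnit u ↔ R.red u ≠ 0 := by
  rw [Ne, R.red_eq_zero_iff, not_not]

theorem red_unit_ne_zero (u : R.Oˣ) : R.red (u : R.O) ≠ 0 :=
  (isUnit_iff_red_ne_zero R _).mp u.isUnit

theorem coe_unit_ne_zero (u : R.Oˣ) : ((u : R.O) : FL) ≠ 0 := by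
  intro h
  have : (u : R.O) = 0 := Subtype.ext h
  exact u.ne_zero this

/-- the Gauss unit attached to an element with nonzero reduction -/
noncomputable def unitOfRed (u : R.O) (h : R.red u ≠ 0) : R.Oˣ :=
  ((isUnit_iff_red_ne_zero R u).mpr h).unit

@[simp]
theorem coe_unitOfRed (u : R.O) (h : R.red u ≠ 0) : ((unitOfRed R u h : R.Oˣ) : R.O) = u :=
  IsUnit.unit_spec _

variable [HasPrincipalDivisors L FL]

theorem exists_div_unit (u : R.Oˣ) :
    ∃ D : Divisor L FL, (∀ P : Place L FL, D P = P.ord (((u : R.O) : FL))) ∧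
      ∀ Q : Place k Fk, Finsupp.mapDomain r D Q = Q.ord (R.red (u : R.O)) := by
  obtain ⟨D, hD, -⟩ := HasPrincipalDivisors.exists_divisor (K := L) (((u : R.O) : FL))
    (coe_unit_ne_zero R u)
  exact ⟨D, hD, R.compat u D hD⟩

theorem ord_red_nonneg (u : R.Oˣ) (Q : Place k Fk)
    (h : ∀ P : Place L FL, r P = Q → 0 ≤ P.ord (((u : R.O) : FL))) :
    0 ≤ Q.ord (R.red (u : R.O)) := by
  obtain ⟨D, hD, hc⟩ := exists_div_unit R u
  rw [← hc Q]
  exact mapDomain_nonneg r D Q fun P hP => by rw [hD]; exact h P hP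

theorem le_ord_red (u : R.Oˣ) (Q : Place k Fk)
    (h : ∀ P : Place L FL, r P = Q → 0 ≤ P.ord (((u : R.O) : FL)))
    (P0 : Place L FL) (hP0 : r P0 = Q) :
    P0.ord (((u : R.O) : FL)) ≤ Q.ord (R.red (u : R.O)) := by
  obtain ⟨D, hD, hc⟩ := exists_div_unit R u
  rw [← hc Q, ← hD]
  exact le_mapDomain r D Q (fun P hP => by rw [hD]; exact h P hP) P0 hP0

theorem ord_red_eq_zero (u : R.Oˣ) (Q : Place k Fk)
    (h : ∀ P : Place L FL, r P = Q → P.ord (((u : R.O) : FL)) = 0) :
    Q.ord (R.red (u : R.O)) = 0 := by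
  obtain ⟨D, hD, hc⟩ := exists_div_unit R u
  rw [← hc Q]
  exact mapDomain_eq_zero_of_forall r D Q fun P hP => by rw [hD]; exact h P hP

theorem exists_unique_zero (u : R.Oˣ) (Q : Place k Fk)
    (h : ∀ P : Place L FL, r P = Q → 0 ≤ P.ord (((u : R.O) : FL)))
    (h1 : Q.ord (R.red (u : R.O)) = 1) :
    ∃ P0 : Place L FL, r P0 = Q ∧ P0.ord (((u : R.O) : FL)) = 1 ∧
      ∀ P : Place L FL, r P = Q → P ≠ P0 → P.ord (((u : R.O) : FL)) = 0 := by
  obtain ⟨D, hD, hc⟩ := exists_div_unit R u
  obtain ⟨P0, hP0, hD1, hrest⟩ := exists_unique_of_mapDomain_eq_one r D Q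
    (fun P hP => by rw [hD]; exact h P hP) (by rw [hc Q, h1])
  exact ⟨P0, hP0, by rw [← hD, hD1], fun P hP hne => by rw [← hD]; exact hrest P hP hne⟩

end Red

end Fermat.Agent.S18.CoreOrd
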