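import Mathlib
import Fermat.Agent.S18.CoreOrd
import Fermat.Agent.S18.Disc.Eval

/-!
# PROJECT H (S18), block D: the abstract core, global part

`core`: for a reduction datum `R : RedDatum A π r` between two function fields all of whose places
have degree one, with Riemann's inequality on the generic side (`RiemannGe L FL g`) and generic
rigid divisors on the special side (`RigidGeneric k Fk g`), a `p`-torsion divisor class
(`(p : k) ≠ 0`) of degree zero with principal reduction is principal.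

The local statement (`LocalForm`, proved in `Fermat/Agent/S18/Disc/`) enters as a hypothesis.
-/

set_option autoImplicit false
set_option linter.unusedSectionVars false
set_option linter.unusedVariables false

namespace Fermat.Agent.S18.Core

open AlgebraicCurve Fermat.Agent.S18.CoreDefs Fermat.Agent.S18.CoreOrd Fermat.Agent.S24.Ord

section Comb

variable {α β : Type*}

theorem sum_single_apply_of_injective {g : ℕ} (Qs : Fin g → β) (hQs : Function.Injective Qs)
    (i : Fin g) : (∑ j, Finsupp.single (Qs j) (1 : ℤ)) (Qs i) = 1 := by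
  classical
  rw [Finsupp.finsetSum_apply]
  rw [Finset.sum_eq_single i]
  · exact Finsupp.single_eq_same
  · intro j _ hji
    exact Finsupp.single_eq_of_ne (fun h => hji (hQs h).symm)
  · intro h; exact absurd (Finset.mem_univ i) h

theorem sum_single_apply_of_notMem {g : ℕ} (Qs : Fin g → β) (Q : β) (hQ : ∀ i, Qs i ≠ Q) :
    (∑ j, Finsupp.single (Qs j) (1 : ℤ)) Q = 0 := by
  classical
  rw [Finsupp.finsetSum_apply]
  exact Finset.sum_eq_zero fun j _ => Finsupp.single_eq_of_ne (fun h => hQ j h.symm)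

theorem sum_single_nonneg {g : ℕ} (Qs : Fin g → β) (Q : β) :
    0 ≤ (∑ j, Finsupp.single (Qs j) (1 : ℤ)) Q := by
  classical
  rw [Finsupp.finsetSum_apply]
  refine Finset.sum_nonneg fun j _ => ?_
  rw [Finsupp.single_apply]
  split_ifs <;> norm_num

theorem exists_lift_of_mapDomain_eq {g : ℕ} (r : α → β) (E : α →₀ ℤ) (hE : ∀ P, 0 ≤ E P)
    (Qs : Fin g → β) (hQs : Function.Injective Qs)
    (h : Finsupp.mapDomain r E = ∑ i, Finsupp.single (Qs i) (1 : ℤ)) :
    ∃ Ps : Fin g → α, (∀ i, r (Ps i) = Qs i) ∧ E = ∑ i, Finsupp.single (Ps i) (1 : ℤ) := by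
  classical
  have h1 : ∀ i, ∃ P0, r P0 = Qs i ∧ E P0 = 1 ∧ ∀ P, r P = Qs i → P ≠ P0 → E P = 0 := by
    intro i
    refine exists_unique_of_mapDomain_eq_one r E (Qs i) (fun P _ => hE P) ?_
    rw [h, sum_single_apply_of_injective Qs hQs]
  choose Ps hPs1 hPs2 hPs3 using h1
  have hPsinj : Function.Injective Ps := by
    intro i j hij
    apply hQs
    rw [← hPs1 i, ← hPs1 j, hij]
  refine ⟨Ps, hPs1, ?_⟩
  ext P
  by_cases hP : ∃ i, Ps i = P
  · obtain ⟨i, rfl⟩ := hP
    rw [hPs2, sum_single_apply_of_injective Ps hPsinj]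
  · push Not at hP
    rw [sum_single_apply_of_notMem Ps P hP]
    by_cases hrP : ∃ i, Qs i = r P
    · obtain ⟨i, hi⟩ := hrP
      exact hPs3 i P hi.symm (fun h => hP i h.symm)
    · push Not at hrP
      have hle := le_mapDomain r E (r P) (fun P' _ => hE P') P rfl
      rw [h, sum_single_apply_of_notMem Qs (r P) hrP] at hle
      exact le_antisymm hle (hE P)

end Comb


section Main

variable {L : Type*} [Field L] {FL : Type*} [Field FL] [Algebra L FL]
variable {k : Type*} [Field k] {Fk : Type*} [Field Fk] [Algebra k Fk]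
variable {A : ValuationSubring L} {π : A →+* k} {r : Place L FL → Place k Fk}

/-- The local statement on one residue disc (proved in `Fermat/Agent/S18/Disc/`): if `f ≡ 1` has
divisor `p • (P1 - P0)` on the disc of `Q`, where `P0` is the zero of a good parameter `T`, and
`f - 1 = c0 • w` with `w` a Gauss unit, then the reduction of `w` has at most a simple pole
at `Q`. -/
def LocalForm (R : RedDatum A π r) (p : ℕ) : Prop :=
  ∀ (Q : Place k Fk) (T : R.O), Q.ord (R.red T) = 1 →
    (∀ P : Place L FL, r P = Q → 0 ≤ P.ord ((T : R.O) : FL)) →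
    ∀ P0 P1 : Place L FL, r P0 = Q → r P1 = Q → 0 < P0.ord ((T : R.O) : FL) →
    ∀ f : R.Oˣ, R.red (f : R.O) = 1 →
    (∀ P : Place L FL, r P = Q → P.ord (((f : R.O) : FL)) =
        (Finsupp.single P1 (p : ℤ) - Finsupp.single P0 (p : ℤ) : Place L FL →₀ ℤ) P) →
    ∀ c0 : L, c0 ≠ 0 → ∀ w : R.Oˣ,
      (((f : R.O) : FL)) - 1 = algebraMap L FL c0 * (((w : R.O) : FL)) →
      -1 ≤ Q.ord (R.red (w : R.O))

/-- the push-forward of a principal divisor is principal -/
theorem mapDomain_principal (R : RedDatum A π r) {y : FL} (hy : y ≠ 0) (Dy : Divisor L FL)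
    (hDy : ∀ P : Place L FL, Dy P = P.ord y) :
    ∃ φ : Fk, φ ≠ 0 ∧ ∀ Q : Place k Fk, Finsupp.mapDomain r Dy Q = Q.ord φ := by
  obtain ⟨c, hc, u, hyu⟩ := R.exists_const_mul_unit y hy
  refine ⟨R.red u, red_unit_ne_zero R u, R.compat u Dy (fun P => ?_)⟩
  rw [hDy, hyu, ord_const_mul P hc]

/-- a parameter at a good place `Q` and the unique lift of `Q` where it vanishes -/
theorem exists_param [HasPrincipalDivisors L FL] (R : RedDatum A π r)
    (hπ : Function.Surjective π) (x : R.O) (Q : Place k Fk)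
    (hQ1 : ∃ γ : k, Q.ord (R.red x - algebraMap k Fk γ) = 1)
    (hQ2 : ∀ P : Place L FL, r P = Q → 0 ≤ P.ord ((x : R.O) : FL)) :
    ∃ (T : R.O) (P0 : Place L FL), Q.ord (R.red T) = 1 ∧
      (∀ P : Place L FL, r P = Q → 0 ≤ P.ord ((T : R.O) : FL)) ∧ r P0 = Q ∧
      0 < P0.ord ((T : R.O) : FL) := by
  obtain ⟨γ, hγ⟩ := hQ1
  obtain ⟨c, rfl⟩ := hπ γ
  set T : R.O := x - constO R c with hT
  have hredT : R.red T = R.red x - algebraMap k Fk (π c) := by
    rw [hT, map_sub, red_constO]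
  have hTcoe : ((T : R.O) : FL) = ((x : R.O) : FL) - algebraMap L FL (c : L) := rfl
  have hT1 : Q.ord (R.red T) = 1 := by rw [hredT]; exact hγ
  have hTne : R.red T ≠ 0 := by
    intro h0
    rw [h0, Place.ord_zero] at hT1
    exact zero_ne_one hT1
  have hreg : ∀ P : Place L FL, r P = Q → 0 ≤ P.ord ((T : R.O) : FL) := by
    intro P hP
    rw [hTcoe]
    exact ord_sub_nonneg P (hQ2 P hP) (by rw [ord_algebraMap])
  obtain ⟨P0, hP0, hP01, -⟩ := exists_unique_zero R (unitOfRed R T hTne) Q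
    (by rw [coe_unitOfRed]; exact hreg) (by rw [coe_unitOfRed]; exact hT1)
  rw [coe_unitOfRed] at hP01
  exact ⟨T, P0, hT1, hreg, hP0, by rw [hP01]; exact one_pos⟩

theorem degree_sum_single (hdegL : ∀ P : Place L FL, P.deg = 1) {g : ℕ}
    (Ps : Fin g → Place L FL) :
    Divisor.degree (∑ i, Finsupp.single (Ps i) (1 : ℤ)) = g := by
  rw [map_sum]
  simp [Divisor.degree_single, hdegL]

theorem mapDomain_sum_single {g : ℕ} (Ps : Fin g → Place L FL) (Qs : Fin g → Place k Fk)
    (h : ∀ i, r (Ps i) = Qs i) :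
    Finsupp.mapDomain r (∑ i, Finsupp.single (Ps i) (1 : ℤ)) =
      ∑ i, Finsupp.single (Qs i) (1 : ℤ) := by
  rw [Finsupp.mapDomain_finsetSum]
  exact Finset.sum_congr rfl fun i _ => by rw [Finsupp.mapDomain_single, h i]

/-- Riemann on `FL` plus rigidity on `Fk`: the class of `D` contains `∑ Ps i - ∑ P0s i` with
`Ps i` in the residue disc of `Qs i`. -/
theorem effective_lift [HasPrincipalDivisors L FL] (R : RedDatum A π r) (hdegL : ∀ P : Place L FL, P.deg = 1) {g : ℕ} (hR : RiemannGe L FL g)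
    (Qs : Fin g → Place k Fk) (hQs : Function.Injective Qs)
    (hrigid : ∀ y : Fk, y ∈ riemannRochSpace (∑ i, Finsupp.single (Qs i) (1 : ℤ)) →
      ∃ c : k, y = algebraMap k Fk c)
    (P0s : Fin g → Place L FL) (hP0s : ∀ i, r (P0s i) = Qs i)
    (D : Divisor L FL) (hD0 : Divisor.degree D = 0)
    (hred : Finsupp.mapDomain r D ∈ Divisor.principal (K := k) (F := Fk)) :
    ∃ (Ps : Fin g → Place L FL) (y : FL), (∀ i, r (Ps i) = Qs i) ∧ y ≠ 0 ∧
      ∀ P : Place L FL, P.ord y + D P =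
        (∑ i, Finsupp.single (Ps i) (1 : ℤ)) P - (∑ i, Finsupp.single (P0s i) (1 : ℤ)) P := by
  set E0 : Divisor L FL := ∑ i, Finsupp.single (P0s i) (1 : ℤ) with hE0
  have hdegE0 : Divisor.degree E0 = g := degree_sum_single hdegL P0s
  obtain ⟨y, hy, hyL⟩ := hR (D + E0) (by rw [map_add, hD0, hdegE0, zero_add])
  obtain ⟨Dy, hDy, -⟩ := HasPrincipalDivisors.exists_divisor (K := L) y hy
  set E : Divisor L FL := Dy + D + E0 with hE
  have hEnonneg : ∀ P : Place L FL, 0 ≤ E P := by
    intro P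
    rcases (mem_riemannRochSpace_iff.mp hyL) P with h | h
    · exact absurd h hy
    · rw [hE, Finsupp.add_apply, Finsupp.add_apply, hDy]
      rw [Finsupp.add_apply] at h
      omega
  obtain ⟨φ1, hφ1, hφ1d⟩ := mapDomain_principal R hy Dy hDy
  obtain ⟨φ2, hφ2, hφ2d⟩ := Divisor.mem_principal.mp hred
  have hmapE0 : Finsupp.mapDomain r E0 = ∑ i, Finsupp.single (Qs i) (1 : ℤ) :=
    mapDomain_sum_single P0s Qs hP0s
  have hmapE : ∀ Q : Place k Fk, Finsupp.mapDomain r E Q =
      Q.ord (φ1 * φ2) + (∑ i, Finsupp.single (Qs i) (1 : ℤ)) Q := by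
    intro Q
    rw [hE, Finsupp.mapDomain_add, Finsupp.mapDomain_add, Finsupp.add_apply, Finsupp.add_apply,
      hφ1d, hφ2d, hmapE0, Q.ord_mul hφ1 hφ2]
  have hφL : φ1 * φ2 ∈ riemannRochSpace (∑ i, Finsupp.single (Qs i) (1 : ℤ)) := by
    rw [mem_riemannRochSpace_iff]
    intro Q
    right
    have h1 := mapDomain_nonneg r E Q (fun P _ => hEnonneg P)
    rw [hmapE Q] at h1
    omega
  obtain ⟨c, hc⟩ := hrigid _ hφL
  have hmapE' : Finsupp.mapDomain r E = ∑ i, Finsupp.single (Qs i) (1 : ℤ) := by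
    ext Q
    rw [hmapE Q, hc, ord_algebraMap, zero_add]
  obtain ⟨Ps, hPs, hEPs⟩ := exists_lift_of_mapDomain_eq r E hEnonneg Qs hQs hmapE'
  refine ⟨Ps, y, hPs, hy, fun P => ?_⟩
  rw [← hEPs, hE, Finsupp.add_apply, Finsupp.add_apply, hDy]
  ring

theorem coe_inv_unit (R : RedDatum A π r) (u : R.Oˣ) :
    (((u⁻¹ : R.Oˣ) : R.O) : FL) = (((u : R.O) : FL))⁻¹ := by
  have h : (((u⁻¹ : R.Oˣ) : R.O) : FL) * (((u : R.O) : FL)) = 1 := by
    have h1 : ((u⁻¹ : R.Oˣ) : R.O) * (u : R.O) = 1 := Units.inv_mul u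
    rw [← MulMemClass.coe_mul, h1]
    rfl
  exact eq_inv_of_mul_eq_one_left h

theorem red_inv_unit (R : RedDatum A π r) (u : R.Oˣ) :
    R.red ((u⁻¹ : R.Oˣ) : R.O) = (R.red (u : R.O))⁻¹ := by
  have h : R.red ((u⁻¹ : R.Oˣ) : R.O) * R.red (u : R.O) = 1 := by
    rw [← map_mul]
    simp
  exact eq_inv_of_mul_eq_one_left h

/-- dividing a Gauss unit by a constant of `A` with nonzero residue -/
theorem exists_div_const (R : RedDatum A π r) (u : R.Oˣ) (a : A) (ha : π a ≠ 0) :
    ∃ f : R.Oˣ, (((f : R.O) : FL)) = (((u : R.O) : FL)) * (algebraMap L FL (a : L))⁻¹ ∧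
      R.red (f : R.O) = R.red (u : R.O) * (algebraMap k Fk (π a))⁻¹ := by
  have hne : R.red (constO R a) ≠ 0 := by
    rw [red_constO]
    exact (map_ne_zero_iff _ (algebraMap k Fk).injective).mpr ha
  refine ⟨u * (unitOfRed R (constO R a) hne)⁻¹, ?_, ?_⟩
  · rw [Units.val_mul, MulMemClass.coe_mul, coe_inv_unit, coe_unitOfRed, coe_constO]
  · rw [Units.val_mul, map_mul, red_inv_unit, coe_unitOfRed, red_constO]

theorem coe_ne_zero_of_pi_ne_zero {a : A} (ha : π a ≠ 0) : (a : L) ≠ 0 := by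
  intro h
  apply ha
  have : a = 0 := Subtype.ext h
  rw [this, map_zero]

/-- normalisation of the function with divisor `p • D'`: reduction `1`, value `1` at `Pstar` -/
theorem normalize [HasPrincipalDivisors L FL] [HasPrincipalDivisors k Fk]
    (R : RedDatum A π r) (hdegL : ∀ P : Place L FL, P.deg = 1)
    (hπ : Function.Surjective π) {g : ℕ} (Qs : Fin g → Place k Fk)
    (hrigid : ∀ y : Fk, y ∈ riemannRochSpace (∑ i, Finsupp.single (Qs i) (1 : ℤ)) →
      ∃ c : k, y = algebraMap k Fk c)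
    (p : ℕ) (D' : Divisor L FL) (hD'r : Finsupp.mapDomain r D' = 0)
    (f0 : FL) (hf0 : f0 ≠ 0) (hf0D : ∀ P : Place L FL, P.ord f0 = p * D' P)
    (Pstar : Place L FL) (hstar : ∀ P : Place L FL, r P = r Pstar → D' P = 0) :
    ∃ f : R.Oˣ, R.red (f : R.O) = 1 ∧
      (∀ P : Place L FL, P.ord (((f : R.O) : FL)) = p * D' P) ∧
      ((((f : R.O) : FL)) = 1 ∨ 0 < Pstar.ord ((((f : R.O) : FL)) - 1)) := by
  obtain ⟨c, hc, u, hfu⟩ := R.exists_const_mul_unit f0 hf0
  have hordu : ∀ P : Place L FL, P.ord (((u : R.O) : FL)) = p * D' P := by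
    intro P
    rw [← hf0D P, hfu, ord_const_mul P hc]
  -- the reduction of `u` has trivial divisor
  have hredu : ∀ Q : Place k Fk, Q.ord (R.red (u : R.O)) = 0 := by
    intro Q
    have h := R.compat u ((p : ℤ) • D') (fun P => by
      rw [Finsupp.smul_apply, smul_eq_mul, hordu]) Q
    rw [Finsupp.mapDomain_smul, hD'r, smul_zero, Finsupp.zero_apply] at h
    exact h.symm
  obtain ⟨γ, hγ⟩ := hrigid (R.red (u : R.O)) (by
    rw [mem_riemannRochSpace_iff]
    intro Q
    right
    rw [hredu Q]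
    have := sum_single_nonneg Qs Q
    omega)
  have hγ0 : γ ≠ 0 := by
    rintro rfl
    rw [map_zero] at hγ
    exact red_unit_ne_zero R u hγ
  obtain ⟨a, rfl⟩ := hπ γ
  obtain ⟨f1, hf1coe, hf1red⟩ := exists_div_const R u a hγ0
  have ha0 : (a : L) ≠ 0 := coe_ne_zero_of_pi_ne_zero hγ0
  have hf1red' : R.red (f1 : R.O) = 1 := by
    rw [hf1red, hγ]
    exact mul_inv_cancel₀ ((map_ne_zero_iff _ (algebraMap k Fk).injective).mpr hγ0)
  have hordf1 : ∀ P : Place L FL, P.ord (((f1 : R.O) : FL)) = p * D' P := by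
    intro P
    rw [hf1coe, ← map_inv₀, ord_mul_const P (inv_ne_zero ha0), hordu]
  -- the value at `Pstar`
  have hreg : ∀ P : Place L FL, r P = r Pstar → 0 ≤ P.ord (((f1 : R.O) : FL)) := by
    intro P hP
    rw [hordf1, hstar P hP, mul_zero]
  obtain ⟨κ, hκ | hκ⟩ := exists_value Pstar (hdegL Pstar) (hreg Pstar rfl)
  · -- `f1` is a constant: all orders vanish
    refine ⟨1, by simp, fun P => ?_, Or.inl (by simp)⟩
    rw [← hordf1 P, hκ, ord_algebraMap]
    simp
  · obtain ⟨hκA, hκ1⟩ := Fermat.Agent.S18.Disc.value_mem hπ R (f1 : R.O) (r Pstar) hreg Pstar rfl κ hκ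
    have hπκ : π ⟨κ, hκA⟩ = 1 := by
      rw [hf1red', ← map_one (algebraMap k Fk), ← map_sub] at hκ1
      rcases hκ1 with h | h
      · have := (map_eq_zero_iff _ (algebraMap k Fk).injective).mp h
        exact (sub_eq_zero.mp this).symm
      · rw [ord_algebraMap] at h
        exact absurd h (lt_irrefl _)
    have hπκ0 : π ⟨κ, hκA⟩ ≠ 0 := by rw [hπκ]; exact one_ne_zero
    have hκ0 : κ ≠ 0 := coe_ne_zero_of_pi_ne_zero hπκ0
    obtain ⟨f, hfcoe, hfred⟩ := exists_div_const R f1 ⟨κ, hκA⟩ hπκ0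
    refine ⟨f, ?_, fun P => ?_, Or.inr ?_⟩
    · rw [hfred, hf1red', hπκ, map_one, inv_one, mul_one]
    · rw [hfcoe, ← map_inv₀, ord_mul_const P (inv_ne_zero hκ0), hordf1]
    · have hAκ : algebraMap L FL κ ≠ 0 :=
        (map_ne_zero_iff _ (algebraMap L FL).injective).mpr hκ0
      have : (((f : R.O) : FL)) - 1 =
          ((((f1 : R.O) : FL)) - algebraMap L FL κ) * algebraMap L FL κ⁻¹ := by
        rw [hfcoe, map_inv₀]
        field_simp
      rw [this, ord_mul_const Pstar (inv_ne_zero hκ0)]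
      exact hκ

/-- on the residue disc of `Qs i` only the `i`-th summand of `∑ single (Ps j) 1` is visible -/
theorem sum_single_apply_disc {g : ℕ} (Qs : Fin g → Place k Fk) (hQs : Function.Injective Qs)
    (Ps : Fin g → Place L FL) (hPs : ∀ i, r (Ps i) = Qs i) (i : Fin g) (P : Place L FL)
    (hP : r P = Qs i) :
    (∑ j, Finsupp.single (Ps j) (1 : ℤ)) P = (Finsupp.single (Ps i) (1 : ℤ)) P := by
  classical
  rw [Finsupp.finsetSum_apply]
  rw [Finset.sum_eq_single i]
  · intro j _ hji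
    refine Finsupp.single_eq_of_ne (fun h => hji ?_)
    apply hQs
    rw [← hPs j, ← h, hP]
  · intro h; exact absurd (Finset.mem_univ i) h

theorem sum_single_apply_off {g : ℕ} (Qs : Fin g → Place k Fk)
    (Ps : Fin g → Place L FL) (hPs : ∀ i, r (Ps i) = Qs i) (P : Place L FL)
    (hP : ∀ i, Qs i ≠ r P) :
    (∑ j, Finsupp.single (Ps j) (1 : ℤ)) P = 0 :=
  sum_single_apply_of_notMem Ps P fun i h => hP i (by rw [← hPs i, h])

/-- the function `f` of `normalize` cannot be different from `1` -/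
theorem no_nontrivial [HasPrincipalDivisors L FL] [HasPrincipalDivisors k Fk]
    (R : RedDatum A π r) (hdegL : ∀ P : Place L FL, P.deg = 1)
    (hπ : Function.Surjective π) {g : ℕ} (Qs : Fin g → Place k Fk)
    (hQs : Function.Injective Qs)
    (hrigid : ∀ y : Fk, y ∈ riemannRochSpace (∑ i, Finsupp.single (Qs i) (1 : ℤ)) →
      ∃ c : k, y = algebraMap k Fk c)
    (p : ℕ) (hloc : LocalForm R p)
    (T : Fin g → R.O) (hTQ : ∀ i, (Qs i).ord (R.red (T i)) = 1)
    (hTreg : ∀ i, ∀ P : Place L FL, r P = Qs i → 0 ≤ P.ord ((T i : R.O) : FL))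
    (P0s Ps : Fin g → Place L FL) (hP0s : ∀ i, r (P0s i) = Qs i) (hPs : ∀ i, r (Ps i) = Qs i)
    (hT0 : ∀ i, 0 < (P0s i).ord ((T i : R.O) : FL))
    (f : R.Oˣ) (hf1 : R.red (f : R.O) = 1)
    (hford : ∀ P : Place L FL, P.ord (((f : R.O) : FL)) =
      p * ((∑ i, Finsupp.single (Ps i) (1 : ℤ)) P - (∑ i, Finsupp.single (P0s i) (1 : ℤ)) P))
    (Pstar : Place L FL) (hstar : ∀ i, Qs i ≠ r Pstar)
    (hfstar : 0 < Pstar.ord ((((f : R.O) : FL)) - 1)) : False := by
  classical
  have hf1ne : (((f : R.O) : FL)) - 1 ≠ 0 := by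
    intro h0
    rw [h0, Place.ord_zero] at hfstar
    exact lt_irrefl _ hfstar
  obtain ⟨c0, hc0, w, hw⟩ := R.exists_const_mul_unit _ hf1ne
  have hordw : ∀ P : Place L FL, P.ord (((w : R.O) : FL)) = P.ord ((((f : R.O) : FL)) - 1) := by
    intro P
    rw [hw, ord_const_mul P hc0]
  -- off the discs of the `Qs i` the function `w` is regular
  have hoff : ∀ Q : Place k Fk, (∀ i, Qs i ≠ Q) → ∀ P : Place L FL, r P = Q →
      0 ≤ P.ord (((w : R.O) : FL)) := by
    intro Q hQ P hP
    rw [hordw]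
    refine ord_sub_nonneg P ?_ (by rw [Place.ord_one])
    rw [hford, sum_single_apply_off Qs Ps hPs P (by rw [hP]; exact hQ),
      sum_single_apply_off Qs P0s hP0s P (by rw [hP]; exact hQ)]
    simp
  have hwL : R.red (w : R.O) ∈ riemannRochSpace (∑ i, Finsupp.single (Qs i) (1 : ℤ)) := by
    rw [mem_riemannRochSpace_iff]
    intro Q
    right
    by_cases hQ : ∃ i, Qs i = Q
    · obtain ⟨i, rfl⟩ := hQ
      rw [sum_single_apply_of_injective Qs hQs]
      refine hloc (Qs i) (T i) (hTQ i) (hTreg i) (P0s i) (Ps i)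
        (hP0s i) (hPs i) (hT0 i) f hf1 (fun P hP => ?_) c0 hc0 w hw
      rw [hford, sum_single_apply_disc Qs hQs Ps hPs i P hP,
        sum_single_apply_disc Qs hQs P0s hP0s i P hP, Finsupp.sub_apply]
      simp only [Finsupp.single_apply]
      split_ifs <;> simp
    · push Not at hQ
      rw [sum_single_apply_of_notMem Qs Q hQ, neg_zero]
      exact ord_red_nonneg R w Q (hoff Q hQ)
  obtain ⟨γ, hγ⟩ := hrigid _ hwL
  have h1 := le_ord_red R w (r Pstar) (hoff (r Pstar) hstar) Pstar rfl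
  rw [hγ, ord_algebraMap, hordw] at h1
  omega

/-- the set of poles of a function is finite -/
theorem finite_poles [HasPrincipalDivisors L FL] (x : FL) :
    {P : Place L FL | P.ord x < 0}.Finite := by
  rcases eq_or_ne x 0 with rfl | hx
  · simp
  obtain ⟨Dx, hDx, -⟩ := HasPrincipalDivisors.exists_divisor (K := L) x hx
  refine Dx.support.finite_toSet.subset fun P hP => ?_
  rw [Finset.mem_coe, Finsupp.mem_support_iff, hDx]
  exact ne_of_lt hP

/-- **The abstract core of S18.** A `p`-torsion class (`p` prime to the residue characteristic)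
of degree zero whose reduction is principal is principal. -/
theorem core
    [HasPrincipalDivisors L FL] [HasPrincipalDivisors k Fk]
    (hdegL : ∀ P : Place L FL, P.deg = 1)
    (A : ValuationSubring L) (π : A →+* k) (hπ : Function.Surjective π)
    (r : Place L FL → Place k Fk) (R : RedDatum A π r)
    (p : ℕ) (hpk : (p : k) ≠ 0) (hloc : LocalForm R p)
    (x : R.O)
    (hunram : {Q : Place k Fk | ¬ ∃ γ : k, Q.ord (R.red x - algebraMap k Fk γ) = 1}.Finite)
    (g : ℕ) (hR : RiemannGe L FL g) (hG : RigidGeneric k Fk g)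
    (D : Divisor L FL) (hD0 : Divisor.degree D = 0)
    (hpD : p • D ∈ Divisor.principal (K := L) (F := FL))
    (hred : Finsupp.mapDomain r D ∈ Divisor.principal (K := k) (F := Fk)) :
    D ∈ Divisor.principal (K := L) (F := FL) := by
  classical
  by_cases hne : Nonempty (Place L FL)
  swap
  · rw [not_nonempty_iff] at hne
    have : D = 0 := Finsupp.ext fun P => isEmptyElim P
    rw [this]
    exact zero_mem _
  obtain ⟨Pstar⟩ := hne
  have hp0 : (p : ℤ) ≠ 0 := by
    intro h
    apply hpk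
    have : p = 0 := by exact_mod_cast h
    rw [this, Nat.cast_zero]
  -- the bad set
  set Bad : Set (Place k Fk) :=
    {Q : Place k Fk | ¬ ∃ γ : k, Q.ord (R.red x - algebraMap k Fk γ) = 1} ∪
      r '' {P : Place L FL | P.ord ((x : R.O) : FL) < 0} ∪ {r Pstar} with hBad
  have hBadfin : Bad.Finite :=
    (hunram.union ((finite_poles ((x : R.O) : FL)).image r)).union (Set.finite_singleton _)
  obtain ⟨Qs, hQs, hQsBad, hrigid⟩ := hG Bad hBadfin
  have hstar : ∀ i, Qs i ≠ r Pstar := by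
    intro i h
    exact hQsBad i (Or.inr (by rw [h]; exact Set.mem_singleton _))
  -- parameters and base points
  have hpar : ∀ i, ∃ (T : R.O) (P0 : Place L FL), (Qs i).ord (R.red T) = 1 ∧
      (∀ P : Place L FL, r P = Qs i → 0 ≤ P.ord ((T : R.O) : FL)) ∧ r P0 = Qs i ∧
      0 < P0.ord ((T : R.O) : FL) := by
    intro i
    refine exists_param R hπ x (Qs i) ?_ ?_
    · by_contra hcon
      exact hQsBad i (Or.inl (Or.inl hcon))
    · intro P hP
      by_contra hcon
      rw [not_le] at hcon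
      exact hQsBad i (Or.inl (Or.inr ⟨P, hcon, hP⟩))
  choose T P0s hTQ hTreg hP0s hT0 using hpar
  -- Riemann + rigidity
  obtain ⟨Ps, y, hPs, hy, hyD⟩ := effective_lift R hdegL hR Qs hQs hrigid P0s hP0s D hD0 hred
  set D' : Divisor L FL :=
    (∑ i, Finsupp.single (Ps i) (1 : ℤ)) - (∑ i, Finsupp.single (P0s i) (1 : ℤ)) with hD'
  have hD'apply : ∀ P : Place L FL, D' P =
      (∑ i, Finsupp.single (Ps i) (1 : ℤ)) P - (∑ i, Finsupp.single (P0s i) (1 : ℤ)) P := by
    intro P
    rw [hD', Finsupp.sub_apply]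
  have hD'r : Finsupp.mapDomain r D' = 0 := by
    rw [hD', Finsupp.mapDomain_sub,
      mapDomain_sum_single Ps Qs hPs, mapDomain_sum_single P0s Qs hP0s, sub_self]
  -- the function with divisor `p • D'`
  obtain ⟨fD, hfD, hfDd⟩ := Divisor.mem_principal.mp hpD
  have hf0 : y ^ p * fD ≠ 0 := mul_ne_zero (pow_ne_zero _ hy) hfD
  have hf0D : ∀ P : Place L FL, P.ord (y ^ p * fD) = p * D' P := by
    intro P
    rw [P.ord_mul (pow_ne_zero _ hy) hfD, ord_pow, ← hfDd P, hD'apply, ← hyD P,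
      Finsupp.smul_apply]
    simp only [nsmul_eq_mul]
    ring
  have hstar' : ∀ P : Place L FL, r P = r Pstar → D' P = 0 := by
    intro P hP
    rw [hD'apply, sum_single_apply_off Qs Ps hPs P (by rw [hP]; exact hstar),
      sum_single_apply_off Qs P0s hP0s P (by rw [hP]; exact hstar), sub_zero]
  obtain ⟨f, hfred, hford, hf⟩ :=
    normalize R hdegL hπ Qs hrigid p D' hD'r (y ^ p * fD) hf0 hf0D Pstar hstar'
  rcases hf with hf | hf
  · -- `f = 1`: then `D' = 0` and `D = -div y`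
    have hD'0 : ∀ P : Place L FL, D' P = 0 := by
      intro P
      have h := hford P
      rw [hf, Place.ord_one] at h
      rcases mul_eq_zero.mp h.symm with h | h
      · exact absurd h hp0
      · exact h
    refine Divisor.mem_principal.mpr ⟨y⁻¹, inv_ne_zero hy, fun P => ?_⟩
    have h := hyD P
    rw [← hD'apply, hD'0 P] at h
    rw [P.ord_inv]
    omega
  · exact (no_nontrivial R hdegL hπ Qs hQs hrigid p hloc T hTQ hTreg P0s Ps hP0s hPs hT0 f hfred
      (fun P => by rw [hford P, hD'apply]) Pstar hstar hf).elim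

end Main

end Fermat.Agent.S18.Core
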