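import Mathlib
import Fermat.Prelude.Def_ModularCurve_ReductionModL
import Fermat.Agent.S18.Core
import Fermat.Agent.S18.GaussFromHBar
import Fermat.Agent.S18.ResidueBasics

/-!
# PROJECT H (S18), block D, slice H-D2a: the frozen statement from the block outputs

`of_inputs`: the statement of S18 (injectivity of `reductionModL` on prime-to-`ℓ` torsion) from
* the reduction datum `redDatumModL h` of block B (`GaussFromHBar`),
* the local statement `Core.LocalForm` (block D-local),
* principal divisors on the special fibre, finiteness of the ramification of `j̄`,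
* Riemann's inequality on `F_L` and generic rigid divisors on `F_k` for the same `g`.
-/

set_option autoImplicit false
set_option synthInstance.maxHeartbeats 400000

namespace Fermat.Agent.S18.Assembly

open AlgebraicCurve ModularCurve
open Fermat.Agent.S18.CoreDefs Fermat.Agent.S18.Core Fermat.Agent.S18.GaussFromHBar

variable {A : ValuationSubring (AlgebraicClosure ℚ)} {N : ℕ} [NeZero N]

/-- the case of a class killed by `p` with `p` invertible in the residue field -/
theorem prime_case (h : ReductionInputsModL A N)
    [HasPrincipalDivisors (IsLocalRing.ResidueField A)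
      ↥(modularFunctionFieldFullC (IsLocalRing.ResidueField A) N)]
    (p : ℕ) (hpk : (p : IsLocalRing.ResidueField A) ≠ 0)
    (hloc : LocalForm (redDatumModL h) p)
    (hunram : {Q : Place (IsLocalRing.ResidueField A)
        ↥(modularFunctionFieldFullC (IsLocalRing.ResidueField A) N) |
      ¬ ∃ γ : IsLocalRing.ResidueField A,
        Q.ord ((⟨jqModC (IsLocalRing.ResidueField A),
            jqModC_mem_full (IsLocalRing.ResidueField A) N⟩ :
              ↥(modularFunctionFieldFullC (IsLocalRing.ResidueField A) N)) -
          algebraMap (IsLocalRing.ResidueField A)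
            ↥(modularFunctionFieldFullC (IsLocalRing.ResidueField A) N) γ) = 1}.Finite)
    (g : ℕ) (hR : RiemannGe (AlgebraicClosure ℚ) ↥(modularFunctionFieldBar N) g)
    (hG : RigidGeneric (IsLocalRing.ResidueField A)
      ↥(modularFunctionFieldFullC (IsLocalRing.ResidueField A) N) g)
    (z : JZero N) (hpz : p • z = 0) (hz : reductionModL A N z = 0) : z = 0 := by
  have := hasPrincipalDivisors_bar N
  obtain ⟨D, rfl⟩ := Pic0.mk_surjective z
  -- `p • D` is principal
  have hpD : p • (D : Divisor (AlgebraicClosure ℚ) ↥(modularFunctionFieldBar N)) ∈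
      Divisor.principal (K := AlgebraicClosure ℚ) (F := ↥(modularFunctionFieldBar N)) := by
    have h1 : Pic0.mk (p • D) = 0 := hpz
    have h2 := (QuotientAddGroup.eq_zero_iff (p • D)).mp h1
    rw [AddSubgroup.mem_addSubgroupOf] at h2
    simpa using h2
  -- the reduction of `D` is principal
  have hred : Finsupp.mapDomain (placeReductionModL h)
      (D : Divisor (AlgebraicClosure ℚ) ↥(modularFunctionFieldBar N)) ∈
      Divisor.principal (K := IsLocalRing.ResidueField A)
        (F := ↥(modularFunctionFieldFullC (IsLocalRing.ResidueField A) N)) := by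
    rw [reductionModL_mk h D] at hz
    have h2 := (QuotientAddGroup.eq_zero_iff _).mp hz
    rw [AddSubgroup.mem_addSubgroupOf, coe_reductionDegZeroAlong] at h2
    exact h2
  have hprin := core (fun P => Fermat.Agent.S24.Ord.deg_eq_one (Fermat.Agent.S24.Degree.isFF N) P)
    A (IsLocalRing.residue A) IsLocalRing.residue_surjective (placeReductionModL h)
    (redDatumModL h) p hpk hloc ⟨Fermat.Agent.S24.DegreeAlg.jgen N, jgen_mem_O h⟩
    (by rw [red_jgen h]; exact hunram) g hR hG
    (D : Divisor (AlgebraicClosure ℚ) ↥(modularFunctionFieldBar N)) D.2 hpD hred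
  exact (QuotientAddGroup.eq_zero_iff D).mpr (by rw [AddSubgroup.mem_addSubgroupOf]; exact hprin)

/-- **S18 from the block outputs.** -/
theorem of_inputs {ℓ : ℕ} [Fact ℓ.Prime] (hA : A.LiesOverPrime ℓ)
    (h : ReductionInputsModL A N)
    [HasPrincipalDivisors (IsLocalRing.ResidueField A)
      ↥(modularFunctionFieldFullC (IsLocalRing.ResidueField A) N)]
    (hloc : ∀ p : ℕ, (p : IsLocalRing.ResidueField A) ≠ 0 → LocalForm (redDatumModL h) p)
    (hunram : {Q : Place (IsLocalRing.ResidueField A)
        ↥(modularFunctionFieldFullC (IsLocalRing.ResidueField A) N) |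
      ¬ ∃ γ : IsLocalRing.ResidueField A,
        Q.ord ((⟨jqModC (IsLocalRing.ResidueField A),
            jqModC_mem_full (IsLocalRing.ResidueField A) N⟩ :
              ↥(modularFunctionFieldFullC (IsLocalRing.ResidueField A) N)) -
          algebraMap (IsLocalRing.ResidueField A)
            ↥(modularFunctionFieldFullC (IsLocalRing.ResidueField A) N) γ) = 1}.Finite)
    (g : ℕ) (hR : RiemannGe (AlgebraicClosure ℚ) ↥(modularFunctionFieldBar N) g)
    (hG : RigidGeneric (IsLocalRing.ResidueField A)
      ↥(modularFunctionFieldFullC (IsLocalRing.ResidueField A) N) g)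
    (m : ℕ) (hm : ¬ ℓ ∣ m) (z : JZero N) (hmz : m • z = 0)
    (hz : reductionModL A N z = 0) : z = 0 := by
  induction m using Nat.strong_induction_on generalizing z with
  | _ m ih =>
    rcases Nat.lt_or_ge m 2 with hm2 | hm2
    · interval_cases m
      · exact absurd (dvd_zero ℓ) hm
      · rwa [one_nsmul] at hmz
    · set p := m.minFac with hp
      have hpprime : p.Prime := Nat.minFac_prime (by omega)
      obtain ⟨m', hm'⟩ := Nat.minFac_dvd m
      rw [← hp] at hm'
      have hℓp : ¬ ℓ ∣ p := fun hd => hm (hd.trans (Nat.minFac_dvd m))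
      have hℓm' : ¬ ℓ ∣ m' := fun hd => hm (hm' ▸ Dvd.dvd.mul_left hd p)
      have hpk : (p : IsLocalRing.ResidueField A) ≠ 0 :=
        Fermat.Agent.S18.ResidueBasics.natCast_ne_zero_of_not_dvd A hA hℓp
      have hm'pos : 0 < m' := by
        rcases Nat.eq_zero_or_pos m' with h0 | h0
        · rw [h0, mul_zero] at hm'; omega
        · exact h0
      have hm'lt : m' < m := by
        rw [hm']
        exact lt_mul_of_one_lt_left hm'pos hpprime.one_lt
      have hz' : m' • z = 0 := by
        refine prime_case h p hpk (hloc p hpk) hunram g hR hG (m' • z) ?_ ?_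
        · rw [← mul_nsmul', ← hm']; exact hmz
        · rw [map_nsmul, hz, smul_zero]
      exact ih m' hm'lt hℓm' z hz' hz

end Fermat.Agent.S18.Assembly
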