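/-
PROJECT H (S18), slice A3 adapter (helper3): from `NonSpecial.RiemannHyp` to the two shapes that
block D (`CoreDefs`) consumes.

* `rigidGeneric_of_riemannHyp : RiemannHyp k Fk g' → g ≤ g' → CoreDefs.RigidGeneric k Fk g`
* `riemannGe_of_riemannHyp   : RiemannHyp L FL g' → g' ≤ g → CoreDefs.RiemannGe L FL g`
-/
import Mathlib
import Fermat.Agent.S18.NonSpecial
import Fermat.Agent.S18.CoreDefs

set_option autoImplicit false

noncomputable section

namespace Fermat.Agent.S18.NonSpecialAdapter

open AlgebraicCurve Fermat.Agent.S18.NonSpecial Fermat.Agent.S18.CoreDefs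

universe u v

variable {K : Type u} {F : Type v} [Field K] [Field F] [Algebra K F]

/-- if `ℓ(D) = 1` and `D ≥ 0`, every element of `L(D)` is a constant -/
theorem exists_const_of_ell_eq_one {D : Divisor K F} (hD : 0 ≤ D) (hD1 : ell D = 1) {y : F}
    (hy : y ∈ riemannRochSpace D) : ∃ c : K, y = algebraMap K F c := by
  have h1mem := one_mem_riemannRochSpace hD
  have hne : (⟨1, h1mem⟩ : riemannRochSpace D) ≠ 0 := by
    intro h0
    have := congrArg Subtype.val h0
    simp at this
  obtain ⟨c, hc⟩ := (finrank_eq_one_iff_of_nonzero' (⟨1, h1mem⟩ : riemannRochSpace D) hne).mp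
    hD1 ⟨y, hy⟩
  refine ⟨c, ?_⟩
  have := congrArg Subtype.val hc
  simp only [Submodule.coe_smul] at this
  rw [← this, Algebra.smul_def, mul_one]

/-- the sum over an enumeration of a finset is `sumPlaces` -/
theorem sum_single_eq_sumPlaces {g : ℕ} (T : Finset (Place K F)) (e : T ≃ Fin g) :
    (∑ i : Fin g, Finsupp.single ((e.symm i : T) : Place K F) (1 : ℤ)) = sumPlaces T := by
  unfold sumPlaces
  rw [← Finset.sum_coe_sort T (fun Q => Finsupp.single Q (1 : ℤ))]
  exact Fintype.sum_equiv e.symm _ _ (fun i => rfl)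

/-- **block D input (3)**: `RigidGeneric` from Riemann's theorem. -/
theorem rigidGeneric_of_riemannHyp {g g' : ℕ} (h : RiemannHyp K F g') (hg : g ≤ g') :
    RigidGeneric K F g := by
  intro Bad hBad
  obtain ⟨T, hcard, hTB, -, hT1⟩ :=
    exists_nonspecial h Bad hBad (fun _ _ => True) (fun _ => by simp) (fun _ _ _ => trivial) hg
  let e : T ≃ Fin g := T.equivFinOfCardEq hcard
  refine ⟨fun i => ((e.symm i : T) : Place K F), ?_, ?_, ?_⟩
  · intro i j hij
    exact e.symm.injective (Subtype.ext hij)
  · intro i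
    exact hTB _ (e.symm i).2
  · intro y hy
    rw [sum_single_eq_sumPlaces T e] at hy
    exact exists_const_of_ell_eq_one (sumPlaces_nonneg T) hT1 hy

/-- **block D input (2)**: `RiemannGe` from Riemann's theorem. -/
theorem riemannGe_of_riemannHyp {g g' : ℕ} (h : RiemannHyp K F g') (hg : g' ≤ g) :
    RiemannGe K F g := by
  intro D hD
  have hpos : 0 < ell D := by
    have := riemann_ineq h D
    have : (g' : ℤ) ≤ g := by exact_mod_cast hg
    omega
  have := h.finite D
  have hnt : Nontrivial (riemannRochSpace D) := Module.nontrivial_of_finrank_pos hpos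
  obtain ⟨f, hf⟩ := exists_ne (0 : riemannRochSpace D)
  exact ⟨(f : F), fun h0 => hf (Subtype.ext h0), f.2⟩

end Fermat.Agent.S18.NonSpecialAdapter
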