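import Mathlib
import Fermat.Agent.S18.Assembly
import Fermat.Agent.S18.Disc.LocalForm
import Fermat.Agent.S18.NonSpecialAdapter
import Fermat.Agent.S18.A.PrincipalDivisors
import Fermat.Agent.S18.A.UnramFinal
import Fermat.Agent.S18.B.FkBasics
import Fermat.Agent.S18.B.FibreX0
import Fermat.Agent.S18.B.GenusLe

/-!
# PROJECT H (S18), slice H-D2b: the frozen statement from the FOUR open block outputs

`of_blocks`: the statement of S18 from
* `hsep`  : separability of `F_k / k(j̄)` (block B, H-B3);
* `hXL`, `hXk` : Riemann's theorem together with the Hurwitz formula for the same `g`, on `F_L`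
  and on `F_k` (block A, H-A9);
* `hC`   : when `1728 = 0` in `k` (`ℓ ∈ {2, 3}`), the lower bound for the different of the
  supersingular fibre (block C, contract K3).

Everything else (reduction datum, local form, principal divisors, unramifiedness almost
everywhere, the fibre comparison, the genus inequality, the core) is discharged here.
-/

set_option autoImplicit false
set_option synthInstance.maxHeartbeats 400000

namespace Fermat.Agent.S18.Final

open AlgebraicCurve ModularCurve IntermediateField
open Fermat.Agent.S18.CoreDefs Fermat.Agent.S18.Core Fermat.Agent.S18.GaussFromHBar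
open Fermat.Agent.S18.NonSpecial Fermat.Agent.S18.NonSpecialAdapter
open Fermat.Agent.S18.A Fermat.Agent.S18.B
open Fermat.Agent.S24.DegreeAlg (jgen)

local notation "Kb" => AlgebraicClosure ℚ

variable {A : ValuationSubring (AlgebraicClosure ℚ)} {N : ℕ} [NeZero N]

/-- **S18 from Riemann's theorem on both fibres and the genus inequality.** -/
theorem of_riemannHyp {ℓ : ℕ} [Fact ℓ.Prime] (hA : A.LiesOverPrime ℓ)
    (h : ReductionInputsModL A N)
    [IsAlgClosed (IsLocalRing.ResidueField A)]
    (hsep : Algebra.IsSeparable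
      (IsLocalRing.ResidueField A)⟮FkBasics.jk (IsLocalRing.ResidueField A) N⟯
      ↥(modularFunctionFieldFullC (IsLocalRing.ResidueField A) N))
    (gL gk : ℕ)
    (hL : RiemannHyp Kb ↥(modularFunctionFieldBar N) gL)
    (hk : RiemannHyp (IsLocalRing.ResidueField A)
      ↥(modularFunctionFieldFullC (IsLocalRing.ResidueField A) N) gk)
    (hg : gL ≤ gk)
    (m : ℕ) (hm : ¬ ℓ ∣ m) (z : JZero N) (hmz : m • z = 0)
    (hz : reductionModL A N z = 0) : z = 0 := by
  have hPDk : HasPrincipalDivisors (IsLocalRing.ResidueField A)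
      ↥(modularFunctionFieldFullC (IsLocalRing.ResidueField A) N) :=
    PrincipalDivisors.hasPrincipalDivisors (FkBasics.isFF (IsLocalRing.ResidueField A) N) hsep
  have hPDL := hasPrincipalDivisors_bar N
  exact Fermat.Agent.S18.Assembly.of_inputs hA h
    (fun p hpk => Fermat.Agent.S18.Disc.localForm
      (fun P => Fermat.Agent.S24.Ord.deg_eq_one (Fermat.Agent.S24.Degree.isFF N) P)
      IsLocalRing.residue_surjective (redDatumModL h) p hpk)
    (Unram.finite_not_simple (FkBasics.isFF (IsLocalRing.ResidueField A) N) hsep)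
    gk (riemannGe_of_riemannHyp hL hg) (rigidGeneric_of_riemannHyp hk le_rfl)
    m hm z hmz hz

/-- **S18 from the block outputs**: separability (B3), Riemann + Hurwitz on both fibres (A9), and
for `ℓ ∈ {2, 3}` the different of the supersingular fibre (C, contract K3). -/
theorem of_blocks {ℓ : ℕ} [Fact ℓ.Prime] (hℓN : ¬ ℓ ∣ N) (hA : A.LiesOverPrime ℓ)
    (h : ReductionInputsModL A N)
    [IsAlgClosed (IsLocalRing.ResidueField A)]
    (hsep : Algebra.IsSeparable
      (IsLocalRing.ResidueField A)⟮FkBasics.jk (IsLocalRing.ResidueField A) N⟯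
      ↥(modularFunctionFieldFullC (IsLocalRing.ResidueField A) N))
    (hXL : ∃ g : ℕ, RiemannHyp Kb ↥(modularFunctionFieldBar N) g ∧
      Defs.HurwitzFormula (Instances.isFF_jgen N) (Instances.isSeparable_jgen N) g)
    (hXk : ∃ g : ℕ, RiemannHyp (IsLocalRing.ResidueField A)
        ↥(modularFunctionFieldFullC (IsLocalRing.ResidueField A) N) g ∧
      Defs.HurwitzFormula (FkBasics.isFF (IsLocalRing.ResidueField A) N) hsep g)
    (hC : (1728 : IsLocalRing.ResidueField A) = 0 →
      ((Module.finrank Kb⟮jgen N⟯ ↥(modularFunctionFieldBar N) : ℤ)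
          - ((FibreSep.zeros (Instances.isFF_jgen N) (Instances.isSeparable_jgen N) 0).card : ℤ))
        + ((Module.finrank Kb⟮jgen N⟯ ↥(modularFunctionFieldBar N) : ℤ)
          - ((FibreSep.zeros (Instances.isFF_jgen N) (Instances.isSeparable_jgen N) 1728).card : ℤ))
      ≤ ∑ Q ∈ FibreSep.zeros (FkBasics.isFF (IsLocalRing.ResidueField A) N) hsep 0,
          (Defs.diffExp (FkBasics.isFF (IsLocalRing.ResidueField A) N) hsep Q : ℤ))
    (m : ℕ) (hm : ¬ ℓ ∣ m) (z : JZero N) (hmz : m • z = 0)
    (hz : reductionModL A N z = 0) : z = 0 := by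
  obtain ⟨gL, hL, hHL⟩ := hXL
  obtain ⟨gk, hk, hHk⟩ := hXk
  have hg : gL ≤ gk :=
    GenusLe.genus_le_X0 N hsep hHL hHk (FibreX0.finrank_eq hA hℓN h hsep)
      (fun _ => FibreX0.card_zeros_zero_le hA hℓN h hsep)
      (fun _ => FibreX0.card_zeros_1728_le hA hℓN h hsep)
      (FibreX0.card_poles_le hA hℓN h hsep) hC
  exact of_riemannHyp hA h hsep gL gk hL hk hg m hm z hmz hz

end Fermat.Agent.S18.Final
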