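import Mathlib
import Fermat.Agent.S18.Final
import Fermat.Agent.S18.A.Hurwitz
import Fermat.Agent.S18.B.SeparableFk

/-!
# PROJECT H (S18), slice H-D2c (helper4): the frozen statement from contract K3 ALONE

All other inputs of `Final.of_blocks` are on main and are discharged here:
* `hsep`  := `B.SeparableFk.isSeparable_jk` (block B, H-B3);
* `hXL`   := `A.Hurwitz.exists_genus_FL`, `hXk := A.Hurwitz.exists_genus_Fk` (block A, X1 + X2);
* `IsAlgClosed k` := `ResidueBasics.isAlgClosed_residueField`.

`K3 N A` is the one remaining proposition (block C): when `1728 = 0` in the residue field `k`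
(`ℓ ∈ {2, 3}`), `(n - #zeros_L(j = 0)) + (n - #zeros_L(j = 1728)) ≤ ∑_{Q | j̄ = 0} d_Q` with
`n = [F_L : ℚ̄(j)]`.  `of_k3` is the statement of S18 from `K3 N A`; the final file
`Fermat/Agent/S18.lean` is `Wire.of_k3 N hℓN A hA h (proof of K3) m hm z hmz hz`.
-/

set_option autoImplicit false
set_option synthInstance.maxHeartbeats 400000

namespace Fermat.Agent.S18.Wire

open AlgebraicCurve ModularCurve IntermediateField
open Fermat.Agent.S18.A Fermat.Agent.S18.B
open Fermat.Agent.S24.DegreeAlg (jgen)

local notation "Kb" => AlgebraicClosure ℚ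

/-- **Contract K3** (block C): the lower bound for the different of the supersingular fibre,
for residue characteristic `2` or `3`.  (`IsAlgClosed` and `hsep` are propositions, so any proofs
of them may be used.) -/
def K3 (N : ℕ) [NeZero N] (A : ValuationSubring (AlgebraicClosure ℚ)) : Prop :=
  ∀ [IsAlgClosed (IsLocalRing.ResidueField A)]
    (hsep : Algebra.IsSeparable
      (IsLocalRing.ResidueField A)⟮FkBasics.jk (IsLocalRing.ResidueField A) N⟯
      ↥(modularFunctionFieldFullC (IsLocalRing.ResidueField A) N)),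
    (1728 : IsLocalRing.ResidueField A) = 0 →
      ((Module.finrank Kb⟮jgen N⟯ ↥(modularFunctionFieldBar N) : ℤ)
          - ((FibreSep.zeros (Instances.isFF_jgen N) (Instances.isSeparable_jgen N) 0).card : ℤ))
        + ((Module.finrank Kb⟮jgen N⟯ ↥(modularFunctionFieldBar N) : ℤ)
          - ((FibreSep.zeros (Instances.isFF_jgen N) (Instances.isSeparable_jgen N) 1728).card : ℤ))
      ≤ ∑ Q ∈ FibreSep.zeros (FkBasics.isFF (IsLocalRing.ResidueField A) N) hsep 0,
          (Defs.diffExp (FkBasics.isFF (IsLocalRing.ResidueField A) N) hsep Q : ℤ)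

/-- `K3` holds trivially when the residue characteristic is not `2` or `3`. -/
theorem k3_of_ne (N : ℕ) [NeZero N] (A : ValuationSubring (AlgebraicClosure ℚ))
    (h1728 : (1728 : IsLocalRing.ResidueField A) ≠ 0) : K3 N A :=
  fun _ h => absurd h h1728

/-- **S18 from contract K3.** -/
theorem of_k3 (N : ℕ) [NeZero N] {ℓ : ℕ} [Fact ℓ.Prime] (hℓN : ¬ ℓ ∣ N)
    (A : ValuationSubring (AlgebraicClosure ℚ)) (hA : A.LiesOverPrime ℓ)
    (h : ReductionInputsModL A N) (hC : K3 N A)
    (m : ℕ) (hm : ¬ ℓ ∣ m) (z : JZero N) (hmz : m • z = 0)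
    (hz : reductionModL A N z = 0) : z = 0 := by
  have : IsAlgClosed (IsLocalRing.ResidueField A) :=
    Fermat.Agent.S18.ResidueBasics.isAlgClosed_residueField A
  have hsep := SeparableFk.isSeparable_jk (IsLocalRing.ResidueField A) N
  exact Fermat.Agent.S18.Final.of_blocks hℓN hA h hsep (Hurwitz.exists_genus_FL N)
    (Hurwitz.exists_genus_Fk (IsLocalRing.ResidueField A) N hsep) (hC hsep) m hm z hmz hz

end Fermat.Agent.S18.Wire
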